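import Mathlib
import Fermat.Agent.Red.FFLemmas

/-!
# MOONSHOT S19, node (NS): non-special divisors from `RiemannPkg` — basics (helper15)

`hF : Red.RiemannPkg K F` (all places of degree one, Riemann's inequality, equality in large
degree).  No differentials, no canonical divisor.

* `riemannRochSpace_inf_eq` : `L(D₁) ⊓ L(D₂) = L(min(D₁, D₂))`;
* `ptsDiv s` : the reduced effective divisor `∑_{P ∈ s} P` of a finite set of places;
* `finrank_zero_eq_one` : `l(0) = 1`;
* **(NS1)** `finrank_add_single_le` : `l(D + P) ≤ l(D) + 1`;
* `finrank_add_ptsDiv_ge` : if `l(D + P) = l(D) + 1` for every `P ∈ s` then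
  `l(D + ∑_{P ∈ s} P) ≥ l(D) + #s`.
-/

set_option autoImplicit false
set_option linter.unusedSectionVars false
set_option linter.style.haveILetI false

namespace Fermat.Agent.FF2.NS

open AlgebraicCurve Fermat.Agent.Red Module

variable {K F : Type*} [Field K] [Field F] [Algebra K F]

/-- `L(D₁) ⊓ L(D₂) = L(D)` when `D = min(D₁, D₂)` pointwise. -/
theorem riemannRochSpace_inf_eq {D D₁ D₂ : Divisor K F} (h : ∀ v, D v = min (D₁ v) (D₂ v)) :
    riemannRochSpace D₁ ⊓ riemannRochSpace D₂ = riemannRochSpace D := by
  ext f
  rw [Submodule.mem_inf, mem_riemannRochSpace_iff, mem_riemannRochSpace_iff,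
    mem_riemannRochSpace_iff]
  constructor
  · rintro ⟨h1, h2⟩ v
    rcases h1 v with h0 | h1v
    · exact Or.inl h0
    · rcases h2 v with h0 | h2v
      · exact Or.inl h0
      · right
        rw [h v]
        rcases min_choice (D₁ v) (D₂ v) with hm | hm <;> rw [hm] <;> assumption
  · intro hD
    refine ⟨fun v => ?_, fun v => ?_⟩
    · rcases hD v with h0 | hv
      · exact Or.inl h0
      · right
        have := min_le_left (D₁ v) (D₂ v)
        rw [h v] at hv
        linarith
    · rcases hD v with h0 | hv
      · exact Or.inl h0
      · right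
        have := min_le_right (D₁ v) (D₂ v)
        rw [h v] at hv
        linarith

/-- The reduced effective divisor `∑_{P ∈ s} P`. -/
noncomputable def ptsDiv (s : Finset (Place K F)) : Divisor K F :=
  ∑ P ∈ s, Finsupp.single P (1 : ℤ)

@[simp] theorem ptsDiv_empty : ptsDiv (∅ : Finset (Place K F)) = 0 := Finset.sum_empty

theorem ptsDiv_insert [DecidableEq (Place K F)] {s : Finset (Place K F)} {P : Place K F}
    (hP : P ∉ s) : ptsDiv (insert P s) = Finsupp.single P (1 : ℤ) + ptsDiv s :=
  Finset.sum_insert hP

theorem ptsDiv_apply [DecidableEq (Place K F)] (s : Finset (Place K F)) (v : Place K F) :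
    ptsDiv s v = if v ∈ s then 1 else 0 := by
  rw [ptsDiv, Finsupp.finsetSum_apply]
  simp only [Finsupp.single_apply]
  rw [Finset.sum_ite_eq' s v]

theorem ptsDiv_nonneg (s : Finset (Place K F)) : 0 ≤ ptsDiv s := by
  classical
  intro v
  rw [Finsupp.zero_apply, ptsDiv_apply]
  split_ifs <;> norm_num

section Pkg

variable (hF : RiemannPkg K F)
include hF

theorem degree_ptsDiv (s : Finset (Place K F)) : Divisor.degree (ptsDiv s) = s.card := by
  rw [ptsDiv, map_sum, Finset.sum_congr rfl (fun P _ => degree_single_of_pkg hF P 1)]
  simp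

/-- `L(0) = K · 1`, so `l(0) = 1`. -/
theorem finrank_zero_eq_one : finrank K (riemannRochSpace (0 : Divisor K F)) = 1 := by
  have h : riemannRochSpace (0 : Divisor K F) = K ∙ (1 : F) := by
    ext f
    rw [Submodule.mem_span_singleton]
    constructor
    · intro hf
      obtain ⟨a, rfl⟩ := hF.L_zero f hf
      exact ⟨a, by rw [Algebra.smul_def, mul_one]⟩
    · rintro ⟨a, rfl⟩
      exact Submodule.smul_mem _ _ one_mem_riemannRochSpace_zero
  rw [h]
  exact finrank_span_singleton one_ne_zero

/-- Riemann's equality bound, as an existential over natural shifts: for every divisor `D` there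
is `n₀` such that `l(D') = deg D' + 1 - g` whenever `deg D' ≥ deg D + n₀`. -/
theorem exists_shift (D : Divisor K F) : ∃ n₀ : ℕ, ∀ D' : Divisor K F,
    Divisor.degree D + n₀ ≤ Divisor.degree D' →
      (finrank K (riemannRochSpace D') : ℤ) = Divisor.degree D' + 1 - (genusFF K F : ℤ) := by
  obtain ⟨c, hc⟩ := hF.riemann_eq
  refine ⟨(c - Divisor.degree D).toNat, fun D' hD' => hc D' ?_⟩
  have := Int.self_le_toNat (c - Divisor.degree D)
  linarith

/-- **(NS1)**: adding a point raises `l` by at most one. -/
theorem finrank_add_single_le (D : Divisor K F) (P : Place K F) :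
    finrank K (riemannRochSpace (D + Finsupp.single P 1)) ≤
      finrank K (riemannRochSpace D) + 1 := by
  classical
  obtain ⟨n₀, hn₀⟩ := exists_shift hF D
  obtain ⟨Q, hQ⟩ := exists_place_notMem hF ({P} : Finset (Place K F))
  rw [Finset.mem_singleton] at hQ
  set E : Divisor K F := Finsupp.single Q (n₀ : ℤ) with hE
  have hdegE : Divisor.degree E = n₀ := degree_single_of_pkg hF Q n₀
  have hdegP : Divisor.degree (Finsupp.single P (1 : ℤ)) = 1 := degree_single_of_pkg hF P 1
  haveI := hF.finite_L D
  haveI := hF.finite_L (D + Finsupp.single P 1)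
  haveI := hF.finite_L (D + E)
  haveI := hF.finite_L (D + E + Finsupp.single P 1)
  -- exact dimensions in large degree
  have h1 := hn₀ (D + E) (by rw [map_add, hdegE])
  have h2 := hn₀ (D + E + Finsupp.single P 1) (by rw [map_add, map_add, hdegE, hdegP]; linarith)
  rw [map_add, hdegE] at h1
  rw [map_add, map_add, hdegE, hdegP] at h2
  -- the intersection
  have hinf : riemannRochSpace (D + Finsupp.single P 1) ⊓ riemannRochSpace (D + E) =
      riemannRochSpace D := by
    apply riemannRochSpace_inf_eq
    intro v
    rw [Finsupp.add_apply, Finsupp.add_apply, hE, Finsupp.single_apply, Finsupp.single_apply]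
    by_cases hvP : P = v
    · have hvQ : ¬ Q = v := fun h => hQ (h.trans hvP.symm)
      rw [if_pos hvP, if_neg hvQ, add_zero]
      exact (min_eq_right (by linarith)).symm
    · rw [if_neg hvP, add_zero]
      refine (min_eq_left ?_).symm
      split_ifs
      · have : (0 : ℤ) ≤ n₀ := Int.natCast_nonneg n₀
        linarith
      · linarith
  -- the sum
  have hEnn : ∀ v, 0 ≤ E v := by
    intro v
    rw [hE, Finsupp.single_apply]
    split_ifs
    · exact Int.natCast_nonneg n₀
    · exact le_rfl
  have hPnn : ∀ v, 0 ≤ (Finsupp.single P (1 : ℤ) : Divisor K F) v := by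
    intro v
    rw [Finsupp.single_apply]
    split_ifs <;> norm_num
  have hsup : riemannRochSpace (D + Finsupp.single P 1) ⊔ riemannRochSpace (D + E) ≤
      riemannRochSpace (D + E + Finsupp.single P 1) := by
    refine sup_le (riemannRochSpace_mono ?_) (riemannRochSpace_mono ?_)
    · intro v
      have := hEnn v
      simp only [Finsupp.add_apply]
      linarith
    · intro v
      have := hPnn v
      simp only [Finsupp.add_apply]
      linarith
  have hdim := Submodule.finrank_sup_add_finrank_inf_eq
    (riemannRochSpace (D + Finsupp.single P 1)) (riemannRochSpace (D + E))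
  rw [hinf] at hdim
  have hle := Submodule.finrank_mono hsup
  have : (finrank K (riemannRochSpace (D + Finsupp.single P 1)) : ℤ) ≤
      finrank K (riemannRochSpace D) + 1 := by
    have hdim' : ((finrank K ↥(riemannRochSpace (D + Finsupp.single P 1) ⊔
        riemannRochSpace (D + E)) : ℕ) : ℤ) + finrank K (riemannRochSpace D) =
        finrank K (riemannRochSpace (D + Finsupp.single P 1)) +
          finrank K (riemannRochSpace (D + E)) := by exact_mod_cast hdim
    have hle' : ((finrank K ↥(riemannRochSpace (D + Finsupp.single P 1) ⊔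
        riemannRochSpace (D + E)) : ℕ) : ℤ) ≤
        finrank K (riemannRochSpace (D + E + Finsupp.single P 1)) := by exact_mod_cast hle
    linarith
  exact_mod_cast this

/-- `l` is monotone. -/
theorem finrank_mono_of_le {D D' : Divisor K F} (h : D ≤ D') :
    finrank K (riemannRochSpace D) ≤ finrank K (riemannRochSpace D') := by
  haveI := hF.finite_L D'
  exact Submodule.finrank_mono (riemannRochSpace_mono h)

/-- If every point of `s` raises `l(D)`, then `l(D + ∑_{P ∈ s} P) ≥ l(D) + #s`. -/
theorem finrank_add_ptsDiv_ge (D : Divisor K F) (s : Finset (Place K F))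
    (hs : ∀ P ∈ s, finrank K (riemannRochSpace (D + Finsupp.single P 1)) =
      finrank K (riemannRochSpace D) + 1) :
    finrank K (riemannRochSpace D) + s.card ≤ finrank K (riemannRochSpace (D + ptsDiv s)) := by
  classical
  induction s using Finset.induction_on with
  | empty => rw [ptsDiv_empty, add_zero, Finset.card_empty, add_zero]
  | insert P s hP ih =>
    have ih' := ih (fun Q hQ => hs Q (Finset.mem_insert_of_mem hQ))
    have hPs := hs P (Finset.mem_insert_self P s)
    haveI := hF.finite_L D
    haveI := hF.finite_L (D + Finsupp.single P 1)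
    haveI := hF.finite_L (D + ptsDiv s)
    haveI := hF.finite_L (D + ptsDiv (insert P s))
    have hinf : riemannRochSpace (D + Finsupp.single P 1) ⊓ riemannRochSpace (D + ptsDiv s) =
        riemannRochSpace D := by
      apply riemannRochSpace_inf_eq
      intro v
      rw [Finsupp.add_apply, Finsupp.add_apply, ptsDiv_apply, Finsupp.single_apply]
      by_cases hvP : P = v
      · have hvs : v ∉ s := hvP ▸ hP
        rw [if_pos hvP, if_neg hvs, add_zero]
        exact (min_eq_right (by linarith)).symm
      · rw [if_neg hvP, add_zero]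
        refine (min_eq_left ?_).symm
        split_ifs <;> linarith
    have hsup : riemannRochSpace (D + Finsupp.single P 1) ⊔ riemannRochSpace (D + ptsDiv s) ≤
        riemannRochSpace (D + ptsDiv (insert P s)) := by
      rw [ptsDiv_insert hP]
      refine sup_le (riemannRochSpace_mono ?_) (riemannRochSpace_mono ?_)
      · intro v
        have := ptsDiv_nonneg s v
        rw [Finsupp.zero_apply] at this
        rw [Finsupp.add_apply, Finsupp.add_apply, Finsupp.add_apply]
        linarith
      · intro v
        rw [Finsupp.add_apply, Finsupp.add_apply, Finsupp.add_apply, Finsupp.single_apply]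
        split_ifs <;> linarith
    have hdim := Submodule.finrank_sup_add_finrank_inf_eq
      (riemannRochSpace (D + Finsupp.single P 1)) (riemannRochSpace (D + ptsDiv s))
    rw [hinf] at hdim
    have hle := Submodule.finrank_mono hsup
    rw [Finset.card_insert_of_notMem hP]
    omega

end Pkg

end Fermat.Agent.FF2.NS
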