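import Mathlib
import Fermat.Agent.FF2.NS.Basic

/-!
# MOONSHOT S19, node (NS): non-special divisors from `RiemannPkg` — main statements (helper15)

`hF : Red.RiemannPkg K F`.  Write `l(D) = finrank K (riemannRochSpace D)`, `g = genusFF K F`.

* `badSet D` : the places `P` with `l(D + P) = l(D) + 1`;
* **(NS2)** `badSet_finite` : if `l(D) > deg D + 1 - g` (`D` special) then `badSet D` is finite;
* `exists_ptsDiv_finrank_eq` : if `l(D) ≥ deg D + 1 - g + i` there are `i` distinct places outside a
  given finite set `Z` and outside `supp`-irrelevant, with `l(D + ∑ P) = l(D)`;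
* **(NS3)** `exists_ptsDiv_finrank_eq_one` : for `i ≤ g` there are `i` distinct places outside `Z`
  with `l(∑ P) = 1`; `exists_nonspecial` : the case `i = g` (`D₀ = ∑ P_j` of degree `g`, `l(D₀) = 1`);
* **(NS4)** `eq_of_nonneg_of_sub_mem_principal` : if `D₀ ≥ 0`, `l(D₀) = 1` then the only effective
  divisor linearly equivalent to `D₀` is `D₀`; `finrank_add_divOf`, `finrank_eq_of_sub_mem_principal`:
  `l` only depends on the class.
-/

set_option autoImplicit false
set_option linter.unusedSectionVars false
set_option linter.style.haveILetI false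

namespace Fermat.Agent.FF2.NS

open AlgebraicCurve Fermat.Agent.Red Module

variable {K F : Type*} [Field K] [Field F] [Algebra K F]

/-- The places raising `l(D)`. -/
def badSet (D : Divisor K F) : Set (Place K F) :=
  {P | finrank K (riemannRochSpace (D + Finsupp.single P 1)) =
    finrank K (riemannRochSpace D) + 1}

theorem mem_badSet {D : Divisor K F} {P : Place K F} :
    P ∈ badSet D ↔ finrank K (riemannRochSpace (D + Finsupp.single P 1)) =
      finrank K (riemannRochSpace D) + 1 := Iff.rfl

section Pkg

variable (hF : RiemannPkg K F)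
include hF

/-- Outside `badSet D`, adding the point does not change `l`. -/
theorem finrank_add_single_of_notMem_badSet {D : Divisor K F} {P : Place K F}
    (hP : P ∉ badSet D) :
    finrank K (riemannRochSpace (D + Finsupp.single P 1)) = finrank K (riemannRochSpace D) := by
  classical
  have h1 := finrank_add_single_le hF D P
  have h2 : finrank K (riemannRochSpace D) ≤
      finrank K (riemannRochSpace (D + Finsupp.single P 1)) := by
    apply finrank_mono_of_le hF
    intro v
    rw [Finsupp.add_apply, Finsupp.single_apply]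
    split_ifs <;> linarith
  rw [mem_badSet] at hP
  omega

/-- **(NS2)**: a special divisor has only finitely many points raising `l`. -/
theorem badSet_finite (D : Divisor K F)
    (h : Divisor.degree D + 1 - (genusFF K F : ℤ) < finrank K (riemannRochSpace D)) :
    (badSet D).Finite := by
  classical
  by_contra hinf
  rw [Set.not_finite] at hinf
  obtain ⟨n₀, hn₀⟩ := exists_shift hF D
  obtain ⟨s, hs, hcard⟩ := hinf.exists_subset_card_eq n₀
  have h1 := finrank_add_ptsDiv_ge hF D s (fun P hP => hs hP)
  have h2 := hn₀ (D + ptsDiv s) (by rw [map_add, degree_ptsDiv hF, hcard])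
  rw [map_add, degree_ptsDiv hF, hcard] at h2
  have h1' : (finrank K (riemannRochSpace D) : ℤ) + n₀ ≤
      finrank K (riemannRochSpace (D + ptsDiv s)) := by
    rw [hcard] at h1
    exact_mod_cast h1
  linarith

/-- If `l(D) ≥ deg D + 1 - g + i`, one can add `i` distinct points outside `Z` without changing
`l`. -/
theorem exists_ptsDiv_finrank_eq (D : Divisor K F) (Z : Finset (Place K F)) (i : ℕ)
    (hi : Divisor.degree D + 1 - (genusFF K F : ℤ) + i ≤ finrank K (riemannRochSpace D)) :
    ∃ s : Finset (Place K F), s.card = i ∧ Disjoint s Z ∧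
      finrank K (riemannRochSpace (D + ptsDiv s)) = finrank K (riemannRochSpace D) := by
  classical
  induction i with
  | zero => exact ⟨∅, rfl, Finset.disjoint_empty_left Z, by rw [ptsDiv_empty, add_zero]⟩
  | succ i ih =>
    obtain ⟨s, hcard, hdisj, hl⟩ := ih (by push_cast at hi ⊢; linarith)
    have hspecial : Divisor.degree (D + ptsDiv s) + 1 - (genusFF K F : ℤ) <
        finrank K (riemannRochSpace (D + ptsDiv s)) := by
      rw [map_add, degree_ptsDiv hF, hcard, hl]
      push_cast at hi
      linarith
    have hfin := badSet_finite hF (D + ptsDiv s) hspecial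
    obtain ⟨P, hP⟩ := exists_place_notMem hF (Z ∪ s ∪ hfin.toFinset)
    rw [Finset.mem_union, Finset.mem_union, Set.Finite.mem_toFinset, not_or, not_or] at hP
    obtain ⟨⟨hPZ, hPs⟩, hPbad⟩ := hP
    refine ⟨insert P s, ?_, ?_, ?_⟩
    · rw [Finset.card_insert_of_notMem hPs, hcard]
    · rw [Finset.disjoint_insert_left]
      exact ⟨hPZ, hdisj⟩
    · rw [ptsDiv_insert hPs, add_comm (Finsupp.single P (1 : ℤ)) (ptsDiv s), ← add_assoc,
        finrank_add_single_of_notMem_badSet hF hPbad, hl]

/-- **(NS3)**: for `i ≤ g` there are `i` distinct places outside `Z` with `l(∑ P) = 1`. -/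
theorem exists_ptsDiv_finrank_eq_one (Z : Finset (Place K F)) (i : ℕ) (hi : i ≤ genusFF K F) :
    ∃ s : Finset (Place K F), s.card = i ∧ Disjoint s Z ∧
      finrank K (riemannRochSpace (ptsDiv s)) = 1 := by
  obtain ⟨s, h1, h2, h3⟩ := exists_ptsDiv_finrank_eq hF (0 : Divisor K F) Z i (by
    rw [map_zero, finrank_zero_eq_one hF]
    have : (i : ℤ) ≤ genusFF K F := by exact_mod_cast hi
    push_cast
    linarith)
  rw [zero_add, finrank_zero_eq_one hF] at h3
  exact ⟨s, h1, h2, h3⟩

/-- **(NS3)**, the non-special divisor of degree `g`: `g` distinct places outside `Z`,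
`D₀ = ∑ P_j`, `deg D₀ = g`, `l(D₀) = 1`. -/
theorem exists_nonspecial (Z : Finset (Place K F)) :
    ∃ s : Finset (Place K F), s.card = genusFF K F ∧ Disjoint s Z ∧
      Divisor.degree (ptsDiv s) = genusFF K F ∧ finrank K (riemannRochSpace (ptsDiv s)) = 1 := by
  obtain ⟨s, h1, h2, h3⟩ := exists_ptsDiv_finrank_eq_one hF Z (genusFF K F) le_rfl
  exact ⟨s, h1, h2, by rw [degree_ptsDiv hF, h1], h3⟩

/-! ### (NS4) consequences -/

/-- If `D₀ ≥ 0` and `l(D₀) = 1` then `L(D₀)` consists of the constants. -/
theorem exists_const_of_mem {D₀ : Divisor K F} (hD₀ : 0 ≤ D₀)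
    (hl : finrank K (riemannRochSpace D₀) = 1) {f : F} (hf : f ∈ riemannRochSpace D₀) :
    ∃ a : K, f = algebraMap K F a := by
  have h1 : (1 : F) ∈ riemannRochSpace D₀ :=
    riemannRochSpace_mono hD₀ one_mem_riemannRochSpace_zero
  have hne : (⟨1, h1⟩ : riemannRochSpace D₀) ≠ 0 := by
    intro h
    exact one_ne_zero (congrArg Subtype.val h)
  obtain ⟨a, ha⟩ := (finrank_eq_one_iff_of_nonzero' _ hne).mp hl ⟨f, hf⟩
  refine ⟨a, ?_⟩
  have := congrArg Subtype.val ha
  simp only [Submodule.coe_smul] at this
  rw [← this, Algebra.smul_def, mul_one]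

/-- **(NS4)**: if `D₀ ≥ 0` and `l(D₀) = 1`, the only effective divisor linearly equivalent to
`D₀` is `D₀` itself. -/
theorem eq_of_nonneg_of_sub_mem_principal {D₀ E : Divisor K F} (hD₀ : 0 ≤ D₀)
    (hl : finrank K (riemannRochSpace D₀) = 1) (hE : 0 ≤ E)
    (hlin : E - D₀ ∈ Divisor.principal (K := K) (F := F)) : E = D₀ := by
  haveI := hF.principal
  obtain ⟨f, hf, hfD⟩ := mem_principal_iff_exists_divOf.mp hlin
  have hfmem : f ∈ riemannRochSpace D₀ := by
    rw [mem_riemannRochSpace_iff_divOf]
    right
    rw [← hfD, sub_add_cancel]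
    exact hE
  obtain ⟨a, rfl⟩ := exists_const_of_mem hF hD₀ hl hfmem
  rw [divOf_algebraMap] at hfD
  exact sub_eq_zero.mp hfD

omit hF in
/-- `l(D + div f) = l(D)`. -/
theorem finrank_add_divOf [HasPrincipalDivisors K F] (D : Divisor K F) {f : F} (hf : f ≠ 0) :
    finrank K (riemannRochSpace (D + divOf K f)) = finrank K (riemannRochSpace D) := by
  have key : ∀ (D : Divisor K F) (f : F), f ≠ 0 → ∀ g ∈ riemannRochSpace (D + divOf K f),
      g * f ∈ riemannRochSpace D := by
    intro D f hf g hg
    rw [mem_riemannRochSpace_iff_divOf] at hg ⊢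
    rcases hg with rfl | hg
    · left
      rw [zero_mul]
    · by_cases hg0 : g = 0
      · left
        rw [hg0, zero_mul]
      · right
        rw [divOf_mul hg0 hf]
        have : divOf K g + (D + divOf K f) = divOf K g + divOf K f + D := by abel
        rw [← this]
        exact hg
  let e : riemannRochSpace (D + divOf K f) ≃ₗ[K] riemannRochSpace D :=
    { toFun := fun g => ⟨g.1 * f, key D f hf g.1 g.2⟩
      map_add' := fun g h => Subtype.ext (by simp [add_mul])
      map_smul' := fun c g => Subtype.ext (by simp)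
      invFun := fun h => ⟨h.1 * f⁻¹, by
        have hD : D = (D + divOf K f) + divOf K f⁻¹ := by
          rw [divOf_inv]
          abel
        have h2 : h.1 ∈ riemannRochSpace ((D + divOf K f) + divOf K f⁻¹) := by
          rw [← hD]
          exact h.2
        exact key (D + divOf K f) f⁻¹ (inv_ne_zero hf) h.1 h2⟩
      left_inv := fun g => Subtype.ext (by
        simp only
        rw [mul_assoc, mul_inv_cancel₀ hf, mul_one])
      right_inv := fun h => Subtype.ext (by
        simp only
        rw [mul_assoc, inv_mul_cancel₀ hf, mul_one]) }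
  exact e.finrank_eq

/-- `l` depends only on the linear equivalence class. -/
theorem finrank_eq_of_sub_mem_principal {D D' : Divisor K F}
    (hlin : D' - D ∈ Divisor.principal (K := K) (F := F)) :
    finrank K (riemannRochSpace D') = finrank K (riemannRochSpace D) := by
  haveI := hF.principal
  obtain ⟨f, hf, hfD⟩ := mem_principal_iff_exists_divOf.mp hlin
  have : D' = D + divOf K f := by
    rw [← hfD]
    abel
  rw [this]
  exact finrank_add_divOf D hf

end Pkg

end Fermat.Agent.FF2.NS
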