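import Mathlib
import Fermat.Agent.FF2.NS.Main

/-!
# MOONSHOT S19, node (NS): the non-special divisor as an injective family `Fin g → Place`
(the binder shape of helper14's (G2))
-/

set_option autoImplicit false
set_option linter.unusedSectionVars false
set_option linter.style.haveILetI false

namespace Fermat.Agent.FF2.NS

open AlgebraicCurve Fermat.Agent.Red Module

variable {K F : Type*} [Field K] [Field F] [Algebra K F]

/-- An enumeration of a finite set of places of cardinality `n`. -/
theorem exists_fin_enum (s : Finset (Place K F)) {n : ℕ} (hn : s.card = n) :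
    ∃ Pb : Fin n → Place K F, Function.Injective Pb ∧ (∀ j, Pb j ∈ s) ∧
      (∀ P ∈ s, ∃ j, Pb j = P) ∧ ∑ j, Finsupp.single (Pb j) (1 : ℤ) = ptsDiv s := by
  classical
  let e : s ≃ Fin n := Finset.equivFinOfCardEq hn
  refine ⟨fun j => (e.symm j).1, ?_, fun j => (e.symm j).2, fun P hP => ⟨e ⟨P, hP⟩, by simp⟩, ?_⟩
  · intro i j hij
    exact e.symm.injective (Subtype.ext hij)
  · rw [ptsDiv, ← Finset.sum_coe_sort s (fun P => Finsupp.single P (1 : ℤ))]
    exact Equiv.sum_comp e.symm (fun P : s => Finsupp.single (P : Place K F) (1 : ℤ))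

/-- **(NS3), `Fin g` form**: an injective family of `g` places outside `Z` whose sum `D₀` has
`l(D₀) = 1`. -/
theorem exists_nonspecial_fin (hF : RiemannPkg K F) (Z : Finset (Place K F)) :
    ∃ Pb : Fin (genusFF K F) → Place K F, Function.Injective Pb ∧ (∀ j, Pb j ∉ Z) ∧
      finrank K (riemannRochSpace (∑ j, Finsupp.single (Pb j) (1 : ℤ))) = 1 := by
  obtain ⟨s, hcard, hdisj, -, hl⟩ := exists_nonspecial hF Z
  obtain ⟨Pb, hinj, hmem, -, hsum⟩ := exists_fin_enum s hcard
  refine ⟨Pb, hinj, fun j hj => ?_, by rw [hsum]; exact hl⟩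
  exact Finset.disjoint_left.mp hdisj (hmem j) hj

/-- The divisor of an injective family is `ptsDiv` of its image. -/
theorem sum_single_eq_ptsDiv [DecidableEq (Place K F)] {n : ℕ} (Pb : Fin n → Place K F)
    (hinj : Function.Injective Pb) :
    ∑ j, Finsupp.single (Pb j) (1 : ℤ) = ptsDiv (Finset.univ.image Pb) := by
  rw [ptsDiv, Finset.sum_image (fun i _ j _ h => hinj h)]

end Fermat.Agent.FF2.NS
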