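import Mathlib
import Fermat.Agent.FF2.NS.Fin

/-!
# MOONSHOT S19, node (NS): special-fibre choices for the chord construction (helper15)

`hF : Red.RiemannPkg K F`, `K` infinite.  All statements are on ONE function field (to be used
on the special fibre `F̃_N / k`).

* `exists_residual` : for disjoint finite sets `s₀`, `s'` of places, multiplicities `a`, `b`, a place
  `∞ ∉ s₀ ∪ s'`, a finite set `Z` and every large `m` there are `f ≠ 0` and an effective divisor `R`,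
  with support disjoint from `s₀ ∪ s' ∪ Z ∪ {∞}`, such that
  `div f = a • ∑_{s₀} P + b • ∑_{s'} P + R - m • ∞` (the zeros at `s₀`, `s'` and the pole at `∞` have
  EXACT orders `a`, `b`, `m`);
* `span_singleton_eq_of_finrank_eq_one`, `riemannRochSpace_eq_span_of_divOf` : if `D + div f = D''`
  with `D'' ≥ 0`, `l(D'') = 1` then `L(D) = K · f`;
* **(C1)** `exists_chord_one` : first chord data: `div f₀ = 2 D₀ + R₀ + D' - m ∞`, `D'` reduced
  non-special of degree `g`, `L(m ∞ - R₀ - 2 D₀) = K · f₀`;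
* **(C2)** `exists_chord_two` : second chord data: `div f₁ = R₁ + D' + D₀ - m' ∞`,
  `L(m' ∞ - R₁ - D') = K · f₁` when `l(D₀) = 1`.
-/

set_option autoImplicit false
set_option linter.unusedSectionVars false
set_option linter.style.haveILetI false

namespace Fermat.Agent.FF2.NS

open AlgebraicCurve Fermat.Agent.Red Module

variable {K F : Type*} [Field K] [Field F] [Algebra K F]

section Pkg

variable (hF : RiemannPkg K F)
include hF

/-- **Prescribed zeros and pole with a free residual divisor.** -/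
theorem exists_residual [Infinite K] (Pinf : Place K F) (s₀ s' : Finset (Place K F))
    (a b : ℕ) (Z : Finset (Place K F)) :
    haveI := hF.principal
    ∃ m₀ : ℕ, ∀ m : ℕ, m₀ ≤ m → ∃ (f : F) (R : Divisor K F), f ≠ 0 ∧ 0 ≤ R ∧
      (∀ P, P ∈ s₀ ∨ P ∈ s' ∨ P ∈ Z ∨ P = Pinf → R P = 0) ∧
      divOf K f = (a : ℤ) • ptsDiv s₀ + (b : ℤ) • ptsDiv s' + R -
        (m : ℤ) • Finsupp.single Pinf (1 : ℤ) := by
  classical
  haveI := hF.principal
  obtain ⟨c, hc⟩ := hF.riemann_eq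
  refine ⟨(c + 1 + a * s₀.card + b * s'.card).toNat, fun m hm => ?_⟩
  set D : Divisor K F := (m : ℤ) • Finsupp.single Pinf (1 : ℤ) - (a : ℤ) • ptsDiv s₀ -
    (b : ℤ) • ptsDiv s' with hD
  have hdeg : Divisor.degree D = m - a * s₀.card - b * s'.card := by
    rw [hD, map_sub, map_sub, map_zsmul, map_zsmul, map_zsmul, degree_single_of_pkg hF,
      degree_ptsDiv hF, degree_ptsDiv hF]
    simp only [smul_eq_mul, mul_one]
  have hlarge : c + 1 ≤ Divisor.degree D := by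
    rw [hdeg]
    have h1 := Int.self_le_toNat (c + 1 + a * s₀.card + b * s'.card)
    have h2 : ((c + 1 + a * s₀.card + b * s'.card).toNat : ℤ) ≤ m := by exact_mod_cast hm
    linarith
  obtain ⟨f, hf0, hfD, hford⟩ := exists_mem_riemannRochSpace_ord_eq hF hc D hlarge
    (s₀ ∪ s' ∪ Z ∪ {Pinf})
  refine ⟨f, divOf K f + D, hf0, ?_, ?_, ?_⟩
  · exact (mem_riemannRochSpace_iff_divOf.mp hfD).resolve_left hf0
  · intro P hP
    have hP' : P ∈ s₀ ∪ s' ∪ Z ∪ {Pinf} := by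
      simp only [Finset.mem_union, Finset.mem_singleton]
      tauto
    rw [Finsupp.add_apply, divOf_apply, hford P hP', neg_add_cancel]
  · rw [hD]
    abel

omit hF in
/-- In a one-dimensional space, every nonzero vector spans. -/
theorem span_singleton_eq_of_finrank_eq_one {V : Submodule K F} (hV : finrank K V = 1) {f : F}
    (hf : f ∈ V) (hf0 : f ≠ 0) : V = K ∙ f := by
  have hne : (⟨f, hf⟩ : V) ≠ 0 := fun h => hf0 (congrArg Subtype.val h)
  apply le_antisymm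
  · intro x hx
    obtain ⟨a, ha⟩ := (finrank_eq_one_iff_of_nonzero' _ hne).mp hV ⟨x, hx⟩
    rw [Submodule.mem_span_singleton]
    exact ⟨a, congrArg Subtype.val ha⟩
  · rw [Submodule.span_singleton_le_iff_mem]
    exact hf

/-- If `D + div f = D''` and `l(D'') = 1` (and `D'' ≥ 0`), then `L(D) = K · f`, `l(D) = 1`. -/
theorem riemannRochSpace_eq_span_of_divOf {D D'' : Divisor K F} {f : F} (hf0 : f ≠ 0)
    (hD'' : 0 ≤ D'') (hl : finrank K (riemannRochSpace D'') = 1)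
    (h : haveI := hF.principal; divOf K f + D = D'') :
    finrank K (riemannRochSpace D) = 1 ∧ riemannRochSpace D = K ∙ f := by
  haveI := hF.principal
  have hfin : finrank K (riemannRochSpace D) = 1 := by
    have : D'' = D + divOf K f := by rw [← h]; abel
    rw [← hl, this]
    exact (finrank_add_divOf D hf0).symm
  refine ⟨hfin, span_singleton_eq_of_finrank_eq_one hfin ?_ hf0⟩
  rw [mem_riemannRochSpace_iff_divOf]
  right
  rw [h]
  exact hD''

/-- **(C1) first chord data.**  `D₀ = ∑_{s₀} P` any reduced divisor, `∞ ∉ s₀`.  There is a reduced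
NON-SPECIAL `D' = ∑_{s'} P` of degree `g`, disjoint from `s₀ ∪ Z ∪ {∞}`, such that for every large
`m` there are `f₀ ≠ 0` and `R₀ ≥ 0` (support disjoint from `s₀ ∪ s' ∪ Z ∪ {∞}`) with
`div f₀ = 2 D₀ + R₀ + D' - m ∞` and `L(m ∞ - R₀ - 2 D₀) = K · f₀`. -/
theorem exists_chord_one [Infinite K] (Pinf : Place K F) (s₀ : Finset (Place K F))
    (Z : Finset (Place K F)) :
    haveI := hF.principal
    ∃ s' : Finset (Place K F), s'.card = genusFF K F ∧
      (∀ P ∈ s', P ∉ s₀ ∧ P ∉ Z ∧ P ≠ Pinf) ∧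
      finrank K (riemannRochSpace (ptsDiv s')) = 1 ∧
      ∃ m₀ : ℕ, ∀ m : ℕ, m₀ ≤ m → ∃ (f₀ : F) (R₀ : Divisor K F), f₀ ≠ 0 ∧ 0 ≤ R₀ ∧
        (∀ P, P ∈ s₀ ∨ P ∈ s' ∨ P ∈ Z ∨ P = Pinf → R₀ P = 0) ∧
        divOf K f₀ = (2 : ℤ) • ptsDiv s₀ + ptsDiv s' + R₀ -
          (m : ℤ) • Finsupp.single Pinf (1 : ℤ) ∧
        finrank K (riemannRochSpace
          ((m : ℤ) • Finsupp.single Pinf (1 : ℤ) - R₀ - (2 : ℤ) • ptsDiv s₀)) = 1 ∧
        riemannRochSpace ((m : ℤ) • Finsupp.single Pinf (1 : ℤ) - R₀ - (2 : ℤ) • ptsDiv s₀) =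
          K ∙ f₀ := by
  classical
  haveI := hF.principal
  obtain ⟨s', hcard, hdisj, -, hl⟩ := exists_nonspecial hF (s₀ ∪ Z ∪ {Pinf})
  have hdisj' : ∀ P ∈ s', P ∉ s₀ ∧ P ∉ Z ∧ P ≠ Pinf := by
    intro P hP
    have h := Finset.disjoint_left.mp hdisj hP
    simp only [Finset.mem_union, Finset.mem_singleton, not_or] at h
    exact ⟨h.1.1, h.1.2, h.2⟩
  refine ⟨s', hcard, hdisj', hl, ?_⟩
  obtain ⟨m₀, hm₀⟩ := exists_residual hF Pinf s₀ s' 2 1 Z
  refine ⟨m₀, fun m hm => ?_⟩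
  obtain ⟨f, R, hf0, hR, hRZ, hdiv⟩ := hm₀ m hm
  have hdiv' : divOf K f = (2 : ℤ) • ptsDiv s₀ + ptsDiv s' + R -
      (m : ℤ) • Finsupp.single Pinf (1 : ℤ) := by
    rw [hdiv]
    simp
  have key := riemannRochSpace_eq_span_of_divOf hF
    (D := (m : ℤ) • Finsupp.single Pinf (1 : ℤ) - R - (2 : ℤ) • ptsDiv s₀)
    hf0 (ptsDiv_nonneg s') hl (by rw [hdiv']; abel)
  exact ⟨f, R, hf0, hR, hRZ, hdiv', key.1, key.2⟩

/-- **(C2) second chord data.**  `D₀ = ∑_{s₀} P` reduced with `l(D₀) = 1`, `D' = ∑_{s'} P` reduced,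
`∞ ∉ s₀ ∪ s'`.  For every large `m'` there are `f₁ ≠ 0`, `R₁ ≥ 0` (support disjoint from
`s₀ ∪ s' ∪ Z ∪ {∞}`) with `div f₁ = D₀ + D' + R₁ - m' ∞` and `L(m' ∞ - R₁ - D') = K · f₁`. -/
theorem exists_chord_two [Infinite K] (Pinf : Place K F) (s₀ s' : Finset (Place K F))
    (hl₀ : finrank K (riemannRochSpace (ptsDiv s₀)) = 1) (Z : Finset (Place K F)) :
    haveI := hF.principal
    ∃ m₀ : ℕ, ∀ m : ℕ, m₀ ≤ m → ∃ (f₁ : F) (R₁ : Divisor K F), f₁ ≠ 0 ∧ 0 ≤ R₁ ∧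
      (∀ P, P ∈ s₀ ∨ P ∈ s' ∨ P ∈ Z ∨ P = Pinf → R₁ P = 0) ∧
      divOf K f₁ = ptsDiv s₀ + ptsDiv s' + R₁ - (m : ℤ) • Finsupp.single Pinf (1 : ℤ) ∧
      finrank K (riemannRochSpace
        ((m : ℤ) • Finsupp.single Pinf (1 : ℤ) - R₁ - ptsDiv s')) = 1 ∧
      riemannRochSpace ((m : ℤ) • Finsupp.single Pinf (1 : ℤ) - R₁ - ptsDiv s') = K ∙ f₁ := by
  classical
  haveI := hF.principal
  obtain ⟨m₀, hm₀⟩ := exists_residual hF Pinf s₀ s' 1 1 Z
  refine ⟨m₀, fun m hm => ?_⟩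
  obtain ⟨f, R, hf0, hR, hRZ, hdiv⟩ := hm₀ m hm
  have hdiv' : divOf K f = ptsDiv s₀ + ptsDiv s' + R -
      (m : ℤ) • Finsupp.single Pinf (1 : ℤ) := by
    rw [hdiv]
    simp
  have key := riemannRochSpace_eq_span_of_divOf hF
    (D := (m : ℤ) • Finsupp.single Pinf (1 : ℤ) - R - ptsDiv s')
    hf0 (ptsDiv_nonneg s₀) hl₀ (by rw [hdiv']; abel)
  exact ⟨f, R, hf0, hR, hRZ, hdiv', key.1, key.2⟩

end Pkg

end Fermat.Agent.FF2.NS
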