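import Mathlib
import Fermat.Agent.FF2.NS.Chord
import Fermat.Agent.FF2.Disc.Chain

/-!
# MOONSHOT S19, node (SF): jets on the special fibre (helper15)

`F/K` a function field in the Prelude language, all places of degree one (`RiemannPkg`).
Vocabulary: `Disc.taylorCoeff P t f n` (helper25's `FF2/Disc/Chain.lean`).

* `mem_valuationSubring_of_mem_riemannRochSpace` : `f ∈ L(D)`, `D P ≤ 0` ⇒ `f` regular at `P`;
* `coeffLin` : the `n`-th Taylor coefficient at `P` as a `K`-linear form on `L(D)` (`D P ≤ 0`);
* **(J1)** `mem_sub_iff_forall_taylorCoeff` : for `E ≥ 0`, `D = 0` on `supp E`, `f ∈ L(D)`: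
  `f ∈ L(D - E) ↔ ∀ P n, n < E P → aₙ(P, f) = 0`;
* **(J2)** `JetIdx E`, `jetMap : L(D) →ₗ[K] (JetIdx E → K)`, `jetMap_eq_zero_iff`,
  `card_jetIdx` (`= deg E`), `jetMap_surjective` (dimension count).
-/

set_option autoImplicit false
set_option linter.unusedSectionVars false
set_option linter.style.haveILetI false

namespace Fermat.Agent.FF2.NS

open AlgebraicCurve Fermat.Agent.Red Fermat.Agent.X0 Module Fermat.Agent.FF2.Disc

variable {K F : Type*} [Field K] [Field F] [Algebra K F]

/-- Functions in `L(D)` are regular at the places where `D ≤ 0`. -/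
theorem mem_valuationSubring_of_mem_riemannRochSpace {D : Divisor K F} {P : Place K F}
    (hDP : D P ≤ 0) {f : F} (hf : f ∈ riemannRochSpace D) : f ∈ P.toValuationSubring := by
  apply Place.mem_of_ord_nonneg
  rcases mem_riemannRochSpace_iff.mp hf P with rfl | h
  · simp
  · omega

/-- The Taylor coefficients of `0` vanish. -/
theorem taylorCoeff_zero_fun {P : Place K F} (hdeg : P.deg = 1) {t : F} (ht : P.ord t = 1)
    (n : ℕ) : taylorCoeff P t (0 : F) n = 0 := by
  have h := taylorCoeff_smul hdeg ht (0 : K) (zero_mem P.toValuationSubring) n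
  rwa [zero_smul, zero_mul] at h

/-- The `n`-th Taylor coefficient at `P` (parameter `t`) as a linear form on `L(D)`, `D P ≤ 0`. -/
noncomputable def coeffLin {P : Place K F} (hdeg : P.deg = 1) {t : F} (ht : P.ord t = 1)
    (D : Divisor K F) (hDP : D P ≤ 0) (n : ℕ) : riemannRochSpace D →ₗ[K] K where
  toFun f := taylorCoeff P t (f : F) n
  map_add' f f' := by
    rw [Submodule.coe_add]
    exact taylorCoeff_add hdeg ht (mem_valuationSubring_of_mem_riemannRochSpace hDP f.2)
      (mem_valuationSubring_of_mem_riemannRochSpace hDP f'.2) n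
  map_smul' a f := by
    rw [Submodule.coe_smul, RingHom.id_apply, smul_eq_mul]
    exact taylorCoeff_smul hdeg ht a (mem_valuationSubring_of_mem_riemannRochSpace hDP f.2) n

@[simp] theorem coeffLin_apply {P : Place K F} (hdeg : P.deg = 1) {t : F} (ht : P.ord t = 1)
    (D : Divisor K F) (hDP : D P ≤ 0) (n : ℕ) (f : riemannRochSpace D) :
    coeffLin hdeg ht D hDP n f = taylorCoeff P t (f : F) n := rfl

/-- **(J1)** vanishing of the jets below `E` cuts `L(D - E)` out of `L(D)`. -/
theorem mem_sub_iff_forall_taylorCoeff (hdeg : ∀ P : Place K F, P.deg = 1)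
    {D E : Divisor K F} (hE : 0 ≤ E) (hDE : ∀ P, E P ≠ 0 → D P = 0) (t : Place K F → F)
    (ht : ∀ P, E P ≠ 0 → P.ord (t P) = 1) {f : F} (hf : f ∈ riemannRochSpace D) :
    f ∈ riemannRochSpace (D - E) ↔
      ∀ (P : Place K F) (n : ℕ), (n : ℤ) < E P → taylorCoeff P (t P) f n = 0 := by
  have hEP : ∀ P, 0 ≤ E P := fun P => by simpa using hE P
  rcases eq_or_ne f 0 with rfl | hf0
  · refine ⟨fun _ P n hn => ?_, fun _ => zero_mem _⟩
    have hP : E P ≠ 0 := by have := hEP P; omega
    exact taylorCoeff_zero_fun (hdeg P) (ht P hP) n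
  have hfD := mem_riemannRochSpace_iff.mp hf
  rw [mem_riemannRochSpace_iff]
  constructor
  · intro h P n hn
    have hP : E P ≠ 0 := by have := hEP P; omega
    have hreg : f ∈ P.toValuationSubring :=
      mem_valuationSubring_of_mem_riemannRochSpace (le_of_eq (hDE P hP)) hf
    have hord : ((E P).toNat : ℤ) ≤ P.ord f := by
      have h1 := (h P).resolve_left hf0
      rw [Finsupp.sub_apply, hDE P hP] at h1
      rw [Int.toNat_of_nonneg (hEP P)]
      omega
    exact (le_ord_iff_taylorCoeff (hdeg P) (ht P hP) hreg hf0 (E P).toNat).mp hord n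
      (by have := Int.toNat_of_nonneg (hEP P); omega)
  · intro h P
    right
    rw [Finsupp.sub_apply]
    by_cases hP : E P = 0
    · have h1 := (hfD P).resolve_left hf0
      rw [hP]
      omega
    · have hreg : f ∈ P.toValuationSubring :=
        mem_valuationSubring_of_mem_riemannRochSpace (le_of_eq (hDE P hP)) hf
      have hord : ((E P).toNat : ℤ) ≤ P.ord f :=
        (le_ord_iff_taylorCoeff (hdeg P) (ht P hP) hreg hf0 (E P).toNat).mpr fun i hi =>
          h P i (by have := Int.toNat_of_nonneg (hEP P); omega)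
      rw [Int.toNat_of_nonneg (hEP P)] at hord
      rw [hDE P hP]
      omega

/-- Index type of the jets below an effective divisor `E`: pairs `(P, n)`, `n < E P`. -/
abbrev JetIdx (E : Divisor K F) : Type _ :=
  Σ P : {P : Place K F // P ∈ E.support}, Fin (E P.1).toNat

theorem JetIdx.ne_zero {E : Divisor K F} (x : JetIdx E) : E x.1.1 ≠ 0 :=
  Finsupp.mem_support_iff.mp x.1.2

/-- **(J2)** the jet map `L(D) → K^{JetIdx E}`. -/
noncomputable def jetMap (hdeg : ∀ P : Place K F, P.deg = 1) (D E : Divisor K F)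
    (hDE : ∀ P, E P ≠ 0 → D P = 0) (t : Place K F → F) (ht : ∀ P, E P ≠ 0 → P.ord (t P) = 1) :
    riemannRochSpace D →ₗ[K] (JetIdx E → K) :=
  LinearMap.pi fun x =>
    coeffLin (hdeg x.1.1) (ht x.1.1 x.ne_zero) D (le_of_eq (hDE x.1.1 x.ne_zero)) x.2

@[simp] theorem jetMap_apply (hdeg : ∀ P : Place K F, P.deg = 1) (D E : Divisor K F)
    (hDE : ∀ P, E P ≠ 0 → D P = 0) (t : Place K F → F) (ht : ∀ P, E P ≠ 0 → P.ord (t P) = 1)
    (f : riemannRochSpace D) (x : JetIdx E) :
    jetMap hdeg D E hDE t ht f x = taylorCoeff x.1.1 (t x.1.1) (f : F) x.2 := rfl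

theorem jetMap_eq_zero_iff (hdeg : ∀ P : Place K F, P.deg = 1) {D E : Divisor K F}
    (hE : 0 ≤ E) (hDE : ∀ P, E P ≠ 0 → D P = 0) (t : Place K F → F)
    (ht : ∀ P, E P ≠ 0 → P.ord (t P) = 1) (f : riemannRochSpace D) :
    jetMap hdeg D E hDE t ht f = 0 ↔ (f : F) ∈ riemannRochSpace (D - E) := by
  have hEP : ∀ P, 0 ≤ E P := fun P => by simpa using hE P
  rw [mem_sub_iff_forall_taylorCoeff hdeg hE hDE t ht f.2]
  constructor
  · intro h P n hn
    have hP : E P ≠ 0 := by have := hEP P; omega
    have hn' : n < (E P).toNat := by have := Int.toNat_of_nonneg (hEP P); omega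
    have := congrFun h ⟨⟨P, Finsupp.mem_support_iff.mpr hP⟩, ⟨n, hn'⟩⟩
    simpa using this
  · intro h
    funext x
    rw [jetMap_apply, Pi.zero_apply]
    apply h
    have := x.2.2
    have := Int.toNat_of_nonneg (hEP x.1.1)
    omega

/-- A linear map between finite-dimensional spaces with `dim V = dim ker + dim W` is onto. -/
theorem surjective_of_finrank_eq {V W : Type*} [AddCommGroup V] [Module K V] [AddCommGroup W]
    [Module K W] [Module.Finite K V] [Module.Finite K W] (φ : V →ₗ[K] W)
    (h : finrank K V = finrank K (LinearMap.ker φ) + finrank K W) : Function.Surjective φ := by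
  rw [← LinearMap.range_eq_top]
  apply Submodule.eq_top_of_finrank_eq
  have := LinearMap.finrank_range_add_finrank_ker φ
  omega

/-- The kernel of a linear map on `L(D)` cut out by `L(D')`, `D' ≤ D`, has dimension `l(D')`. -/
theorem finrank_ker_eq_of_forall_iff {D D' : Divisor K F} (hle : D' ≤ D) {W : Type*}
    [AddCommGroup W] [Module K W] (φ : riemannRochSpace D →ₗ[K] W)
    (h : ∀ f : riemannRochSpace D, φ f = 0 ↔ (f : F) ∈ riemannRochSpace D') :
    finrank K (LinearMap.ker φ) = finrank K (riemannRochSpace D') := by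
  have hker : LinearMap.ker φ =
      Submodule.comap (riemannRochSpace D).subtype (riemannRochSpace D') := by
    ext f
    rw [LinearMap.mem_ker, h f, Submodule.mem_comap, Submodule.subtype_apply]
  rw [hker]
  exact LinearEquiv.finrank_eq
    (Submodule.comapSubtypeEquivOfLe (riemannRochSpace_mono hle))

section Pkg

variable (hF : RiemannPkg K F)
include hF

/-- The number of jets below an effective divisor is its degree. -/
theorem card_jetIdx {E : Divisor K F} (hE : 0 ≤ E) :
    (Fintype.card (JetIdx E) : ℤ) = Divisor.degree E := by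
  have hEP : ∀ P, 0 ≤ E P := fun P => by simpa using hE P
  rw [Fintype.card_sigma, degree_eq_sum hF, Finsupp.sum]
  simp only [Fintype.card_fin]
  rw [Finset.sum_coe_sort E.support (fun P => (E P).toNat), Nat.cast_sum]
  exact Finset.sum_congr rfl fun P _ => Int.toNat_of_nonneg (hEP P)

/-- **(J2)** the jet map is onto as soon as `l(D) = l(D - E) + deg E`. -/
theorem jetMap_surjective {D E : Divisor K F} (hE : 0 ≤ E) (hDE : ∀ P, E P ≠ 0 → D P = 0)
    (t : Place K F → F) (ht : ∀ P, E P ≠ 0 → P.ord (t P) = 1)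
    (hcount : (finrank K (riemannRochSpace D) : ℤ) =
      finrank K (riemannRochSpace (D - E)) + Divisor.degree E) :
    Function.Surjective (jetMap hF.deg_one D E hDE t ht) := by
  haveI := hF.finite_L D
  apply surjective_of_finrank_eq
  rw [finrank_ker_eq_of_forall_iff (sub_le_self D hE) _
    (jetMap_eq_zero_iff hF.deg_one hE hDE t ht), Module.finrank_fintype_fun_eq_card]
  have := card_jetIdx hF hE
  omega

end Pkg

end Fermat.Agent.FF2.NS
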