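import Mathlib
import Fermat.Agent.FF2.NS.Jets

/-!
# MOONSHOT S19, node (SF): the jet maps of the two chords on the special fibre (helper15)

These are the special-fibre hypotheses (H1)/(H2) of the abstract universal chord (UC4) in
Taylor-coefficient form.

* `chordOneJet : L(D) →ₗ[K] (s₀ → K) × (s₀ → K) × (JetIdx R₀ → K)`,
  `f ↦ (a₀(P, f), a₁(P, f), aₙ(Q, f))`; kernel `L(D - R₀ - 2 ∑_{s₀} P)`
  (`chordOneJet_eq_zero_iff`); onto by the dimension count (`chordOneJet_surjective`);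
* `chordTwoJet : L(D) →ₗ[K] (s' → K) × (JetIdx R₁ → K)`; kernel `L(D - R₁ - ∑_{s'} P)`;
* `taylorCoeff_of_ord_eq_one` : a simple zero has `a₀ = 0`, `a₁ ≠ 0`.
-/

set_option autoImplicit false
set_option linter.unusedSectionVars false
set_option linter.style.haveILetI false

namespace Fermat.Agent.FF2.NS

open AlgebraicCurve Fermat.Agent.Red Fermat.Agent.X0 Module Fermat.Agent.FF2.Disc

variable {K F : Type*} [Field K] [Field F] [Algebra K F]

/-- **(H2)** a simple zero: `a₀ = 0`, `a₁ ≠ 0`. -/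
theorem taylorCoeff_of_ord_eq_one {P : Place K F} (hdeg : P.deg = 1) {t : F}
    (ht : P.ord t = 1) {f : F} (hord : P.ord f = 1) :
    taylorCoeff P t f 0 = 0 ∧ taylorCoeff P t f 1 ≠ 0 := by
  have hf0 : f ≠ 0 := by
    rintro rfl
    simp at hord
  have hreg : f ∈ P.toValuationSubring := Place.mem_of_ord_nonneg P (by omega)
  have h := (ord_eq_iff_taylorCoeff hdeg ht hreg hf0 1).mp (by simpa using hord)
  exact ⟨h.1 0 Nat.one_pos, h.2⟩

section ChordOne

variable (hdeg : ∀ P : Place K F, P.deg = 1) (D : Divisor K F) (s₀ : Finset (Place K F))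
  (R₀ : Divisor K F) (hD₀ : ∀ P ∈ s₀, D P = 0) (hDR : ∀ P, R₀ P ≠ 0 → D P = 0)
  (t : Place K F → F) (ht₀ : ∀ P ∈ s₀, P.ord (t P) = 1) (htR : ∀ P, R₀ P ≠ 0 → P.ord (t P) = 1)

/-- The jets of the first chord: values and first derivatives at `s₀`, jets below `R₀`. -/
noncomputable def chordOneJet :
    riemannRochSpace D →ₗ[K]
      ({P : Place K F // P ∈ s₀} → K) × ({P : Place K F // P ∈ s₀} → K) × (JetIdx R₀ → K) :=
  LinearMap.prod
    (LinearMap.pi fun P => coeffLin (hdeg P.1) (ht₀ P.1 P.2) D (le_of_eq (hD₀ P.1 P.2)) 0)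
    (LinearMap.prod
      (LinearMap.pi fun P => coeffLin (hdeg P.1) (ht₀ P.1 P.2) D (le_of_eq (hD₀ P.1 P.2)) 1)
      (jetMap hdeg D R₀ hDR t htR))

theorem chordOneJet_apply (f : riemannRochSpace D) :
    chordOneJet hdeg D s₀ R₀ hD₀ hDR t ht₀ htR f =
      (fun P => taylorCoeff P.1 (t P.1) (f : F) 0, fun P => taylorCoeff P.1 (t P.1) (f : F) 1,
        fun x => taylorCoeff x.1.1 (t x.1.1) (f : F) x.2) := rfl

theorem chordOneJet_eq_zero_iff (hR₀ : 0 ≤ R₀) (hdisj : ∀ P ∈ s₀, R₀ P = 0)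
    (f : riemannRochSpace D) :
    chordOneJet hdeg D s₀ R₀ hD₀ hDR t ht₀ htR f = 0 ↔
      (f : F) ∈ riemannRochSpace (D - R₀ - (2 : ℤ) • ptsDiv s₀) := by
  classical
  have h2 : (0 : Divisor K F) ≤ (2 : ℤ) • ptsDiv s₀ := smul_nonneg (by norm_num) (ptsDiv_nonneg s₀)
  have h2P : ∀ P, ((2 : ℤ) • ptsDiv s₀) P = if P ∈ s₀ then 2 else 0 := by
    intro P
    rw [Finsupp.smul_apply, ptsDiv_apply]
    split_ifs <;> simp
  have hmem : ∀ P, ((2 : ℤ) • ptsDiv s₀) P ≠ 0 → P ∈ s₀ := by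
    intro P hP
    rw [h2P] at hP
    by_contra hne
    simp [hne] at hP
  have hDE : ∀ P, ((2 : ℤ) • ptsDiv s₀) P ≠ 0 → (D - R₀) P = 0 := by
    intro P hP
    rw [Finsupp.sub_apply, hD₀ P (hmem P hP), hdisj P (hmem P hP), sub_zero]
  have htE : ∀ P, ((2 : ℤ) • ptsDiv s₀) P ≠ 0 → P.ord (t P) = 1 := fun P hP => ht₀ P (hmem P hP)
  rw [chordOneJet_apply, Prod.mk_eq_zero, Prod.mk_eq_zero]
  constructor
  · rintro ⟨h0, h1, hj⟩
    have hfR : (f : F) ∈ riemannRochSpace (D - R₀) :=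
      (jetMap_eq_zero_iff hdeg hR₀ hDR t htR f).mp hj
    rw [mem_sub_iff_forall_taylorCoeff hdeg h2 hDE t htE hfR]
    intro P n hn
    rw [h2P] at hn
    by_cases hP : P ∈ s₀
    · rw [if_pos hP] at hn
      have hn' : n = 0 ∨ n = 1 := by omega
      rcases hn' with rfl | rfl
      · exact congrFun h0 ⟨P, hP⟩
      · exact congrFun h1 ⟨P, hP⟩
    · rw [if_neg hP] at hn
      omega
  · intro hf
    have hfR : (f : F) ∈ riemannRochSpace (D - R₀) :=
      riemannRochSpace_mono (sub_le_self _ h2) hf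
    have h := (mem_sub_iff_forall_taylorCoeff hdeg h2 hDE t htE hfR).mp hf
    refine ⟨?_, ?_, (jetMap_eq_zero_iff hdeg hR₀ hDR t htR f).mpr hfR⟩
    · funext P
      exact h P.1 0 (by rw [h2P, if_pos P.2]; norm_num)
    · funext P
      exact h P.1 1 (by rw [h2P, if_pos P.2]; norm_num)

theorem chordOneJet_surjective (hF : RiemannPkg K F) (hR₀ : 0 ≤ R₀)
    (hdisj : ∀ P ∈ s₀, R₀ P = 0)
    (hcount : (finrank K (riemannRochSpace D) : ℤ) =
      finrank K (riemannRochSpace (D - R₀ - (2 : ℤ) • ptsDiv s₀)) + 2 * s₀.card +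
        Divisor.degree R₀) :
    Function.Surjective (chordOneJet hF.deg_one D s₀ R₀ hD₀ hDR t ht₀ htR) := by
  haveI := hF.finite_L D
  have hle : D - R₀ - (2 : ℤ) • ptsDiv s₀ ≤ D :=
    (sub_le_self _ (smul_nonneg (by norm_num) (ptsDiv_nonneg s₀))).trans (sub_le_self _ hR₀)
  apply surjective_of_finrank_eq
  rw [finrank_ker_eq_of_forall_iff hle _
    (chordOneJet_eq_zero_iff hF.deg_one D s₀ R₀ hD₀ hDR t ht₀ htR hR₀ hdisj),
    Module.finrank_prod, Module.finrank_prod, Module.finrank_fintype_fun_eq_card,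
    Module.finrank_fintype_fun_eq_card, Fintype.card_coe]
  have := card_jetIdx hF hR₀
  omega

end ChordOne

section ChordTwo

variable (hdeg : ∀ P : Place K F, P.deg = 1) (D : Divisor K F) (s' : Finset (Place K F))
  (R₁ : Divisor K F) (hD' : ∀ P ∈ s', D P = 0) (hDR : ∀ P, R₁ P ≠ 0 → D P = 0)
  (t : Place K F → F) (ht' : ∀ P ∈ s', P.ord (t P) = 1) (htR : ∀ P, R₁ P ≠ 0 → P.ord (t P) = 1)

/-- The jets of the return chord: values at `s'`, jets below `R₁`. -/
noncomputable def chordTwoJet :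
    riemannRochSpace D →ₗ[K] ({P : Place K F // P ∈ s'} → K) × (JetIdx R₁ → K) :=
  LinearMap.prod
    (LinearMap.pi fun P => coeffLin (hdeg P.1) (ht' P.1 P.2) D (le_of_eq (hD' P.1 P.2)) 0)
    (jetMap hdeg D R₁ hDR t htR)

theorem chordTwoJet_apply (f : riemannRochSpace D) :
    chordTwoJet hdeg D s' R₁ hD' hDR t ht' htR f =
      (fun P => taylorCoeff P.1 (t P.1) (f : F) 0,
        fun x => taylorCoeff x.1.1 (t x.1.1) (f : F) x.2) := rfl

theorem chordTwoJet_eq_zero_iff (hR₁ : 0 ≤ R₁) (hdisj : ∀ P ∈ s', R₁ P = 0)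
    (f : riemannRochSpace D) :
    chordTwoJet hdeg D s' R₁ hD' hDR t ht' htR f = 0 ↔
      (f : F) ∈ riemannRochSpace (D - R₁ - ptsDiv s') := by
  classical
  have h2 : (0 : Divisor K F) ≤ ptsDiv s' := ptsDiv_nonneg s'
  have h2P : ∀ P, (ptsDiv s') P = if P ∈ s' then 1 else 0 := fun P => ptsDiv_apply s' P
  have hmem : ∀ P, (ptsDiv s') P ≠ 0 → P ∈ s' := by
    intro P hP
    rw [h2P] at hP
    by_contra hne
    simp [hne] at hP
  have hDE : ∀ P, (ptsDiv s') P ≠ 0 → (D - R₁) P = 0 := by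
    intro P hP
    rw [Finsupp.sub_apply, hD' P (hmem P hP), hdisj P (hmem P hP), sub_zero]
  have htE : ∀ P, (ptsDiv s') P ≠ 0 → P.ord (t P) = 1 := fun P hP => ht' P (hmem P hP)
  rw [chordTwoJet_apply, Prod.mk_eq_zero]
  constructor
  · rintro ⟨h0, hj⟩
    have hfR : (f : F) ∈ riemannRochSpace (D - R₁) :=
      (jetMap_eq_zero_iff hdeg hR₁ hDR t htR f).mp hj
    rw [mem_sub_iff_forall_taylorCoeff hdeg h2 hDE t htE hfR]
    intro P n hn
    rw [h2P] at hn
    by_cases hP : P ∈ s'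
    · rw [if_pos hP] at hn
      have hn' : n = 0 := by omega
      subst hn'
      exact congrFun h0 ⟨P, hP⟩
    · rw [if_neg hP] at hn
      omega
  · intro hf
    have hfR : (f : F) ∈ riemannRochSpace (D - R₁) :=
      riemannRochSpace_mono (sub_le_self _ h2) hf
    have h := (mem_sub_iff_forall_taylorCoeff hdeg h2 hDE t htE hfR).mp hf
    refine ⟨?_, (jetMap_eq_zero_iff hdeg hR₁ hDR t htR f).mpr hfR⟩
    funext P
    exact h P.1 0 (by rw [h2P, if_pos P.2]; norm_num)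

theorem chordTwoJet_surjective (hF : RiemannPkg K F) (hR₁ : 0 ≤ R₁)
    (hdisj : ∀ P ∈ s', R₁ P = 0)
    (hcount : (finrank K (riemannRochSpace D) : ℤ) =
      finrank K (riemannRochSpace (D - R₁ - ptsDiv s')) + s'.card + Divisor.degree R₁) :
    Function.Surjective (chordTwoJet hF.deg_one D s' R₁ hD' hDR t ht' htR) := by
  haveI := hF.finite_L D
  have hle : D - R₁ - ptsDiv s' ≤ D :=
    (sub_le_self _ (ptsDiv_nonneg s')).trans (sub_le_self _ hR₁)
  apply surjective_of_finrank_eq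
  rw [finrank_ker_eq_of_forall_iff hle _
    (chordTwoJet_eq_zero_iff hF.deg_one D s' R₁ hD' hDR t ht' htR hR₁ hdisj),
    Module.finrank_prod, Module.finrank_fintype_fun_eq_card,
    Module.finrank_fintype_fun_eq_card, Fintype.card_coe]
  have := card_jetIdx hF hR₁
  omega

end ChordTwo

end Fermat.Agent.FF2.NS
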