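import Mathlib
import Fermat.Agent.FF2.NS.JetsChord

/-!
# MOONSHOT S19, node (SF): the packaged special-fibre hypotheses (H1)/(H2) of the two chords
(helper15)

`hF : RiemannPkg K F`, `K` infinite.

* **(J3)** `exists_chord_one_jets` : (C1) + for `m ≥ m₀`: `l(m∞) = 1 + 2|s₀| + deg R₀`, `f₀ ∈ L(m∞)`,
  and for all local parameters `t`: the jet map `L(m∞) → K^{s₀} × K^{s₀} × K^{JetIdx R₀}` is ONTO
  (unbundled: every target is attained), its kernel is `K · f₀`, and `f₀` has `a₀ = 0`, `a₁ ≠ 0`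
  at every output centre `Q ∈ s'`.
* **(J4)** `exists_chord_two_jets` : the same for the return chord.
-/

set_option autoImplicit false
set_option linter.unusedSectionVars false
set_option linter.style.haveILetI false

namespace Fermat.Agent.FF2.NS

open AlgebraicCurve Fermat.Agent.Red Fermat.Agent.X0 Module Fermat.Agent.FF2.Disc

variable {K F : Type*} [Field K] [Field F] [Algebra K F]

/-- `(m ∞)(P) = 0` for `P ≠ ∞`. -/
theorem smul_single_apply_of_ne {Pinf P : Place K F} (hP : P ≠ Pinf) (m : ℤ) :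
    (m • Finsupp.single Pinf (1 : ℤ)) P = 0 := by
  classical
  rw [Finsupp.smul_apply, Finsupp.single_apply, if_neg (Ne.symm hP), smul_zero]

section Pkg

variable (hF : RiemannPkg K F)
include hF

/-- `l(m ∞) = m + 1 - g` for large `m`. -/
theorem exists_finrank_smul_single (Pinf : Place K F) :
    ∃ m₀ : ℕ, ∀ m : ℕ, m₀ ≤ m →
      (finrank K (riemannRochSpace ((m : ℤ) • Finsupp.single Pinf (1 : ℤ))) : ℤ) =
        m + 1 - genusFF K F := by
  obtain ⟨c, hc⟩ := hF.riemann_eq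
  refine ⟨c.toNat, fun m hm => ?_⟩
  have hdeg : Divisor.degree ((m : ℤ) • Finsupp.single Pinf (1 : ℤ)) = m := by
    rw [map_zsmul, degree_single_of_pkg hF, smul_eq_mul, mul_one]
  rw [hc _ (by rw [hdeg]; have := Int.self_le_toNat c; omega), hdeg]

/-- **(J3) first chord: (H1)/(H2) on the special fibre.** -/
theorem exists_chord_one_jets [Infinite K] (Pinf : Place K F) (s₀ : Finset (Place K F))
    (hPinf : Pinf ∉ s₀) (Z : Finset (Place K F)) :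
    haveI := hF.principal
    ∃ s' : Finset (Place K F), s'.card = genusFF K F ∧
      (∀ P ∈ s', P ∉ s₀ ∧ P ∉ Z ∧ P ≠ Pinf) ∧
      finrank K (riemannRochSpace (ptsDiv s')) = 1 ∧
      ∃ m₀ : ℕ, ∀ m : ℕ, m₀ ≤ m → ∃ (f₀ : F) (R₀ : Divisor K F), f₀ ≠ 0 ∧ 0 ≤ R₀ ∧
        (∀ P, P ∈ s₀ ∨ P ∈ s' ∨ P ∈ Z ∨ P = Pinf → R₀ P = 0) ∧
        divOf K f₀ = (2 : ℤ) • ptsDiv s₀ + ptsDiv s' + R₀ -
          (m : ℤ) • Finsupp.single Pinf (1 : ℤ) ∧
        riemannRochSpace ((m : ℤ) • Finsupp.single Pinf (1 : ℤ) - R₀ - (2 : ℤ) • ptsDiv s₀) =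
          K ∙ f₀ ∧
        f₀ ∈ riemannRochSpace ((m : ℤ) • Finsupp.single Pinf (1 : ℤ)) ∧
        (finrank K (riemannRochSpace ((m : ℤ) • Finsupp.single Pinf (1 : ℤ))) : ℤ) =
          1 + 2 * s₀.card + Divisor.degree R₀ ∧
        (Fintype.card (JetIdx R₀) : ℤ) = Divisor.degree R₀ ∧
        ∀ t : Place K F → F, (∀ P, P ∈ s₀ ∨ P ∈ s' ∨ R₀ P ≠ 0 → P.ord (t P) = 1) →
          (∀ (c₀ c₁ : {P : Place K F // P ∈ s₀} → K) (c : JetIdx R₀ → K),
            ∃ f ∈ riemannRochSpace ((m : ℤ) • Finsupp.single Pinf (1 : ℤ)),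
              (∀ P, taylorCoeff P.1 (t P.1) f 0 = c₀ P) ∧
              (∀ P, taylorCoeff P.1 (t P.1) f 1 = c₁ P) ∧
              ∀ x : JetIdx R₀, taylorCoeff x.1.1 (t x.1.1) f x.2 = c x) ∧
          (∀ f ∈ riemannRochSpace ((m : ℤ) • Finsupp.single Pinf (1 : ℤ)),
            ((∀ P ∈ s₀, taylorCoeff P (t P) f 0 = 0 ∧ taylorCoeff P (t P) f 1 = 0) ∧
              ∀ x : JetIdx R₀, taylorCoeff x.1.1 (t x.1.1) f x.2 = 0) ↔ f ∈ K ∙ f₀) ∧
          ∀ Q ∈ s', taylorCoeff Q (t Q) f₀ 0 = 0 ∧ taylorCoeff Q (t Q) f₀ 1 ≠ 0 := by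
  classical
  haveI := hF.principal
  obtain ⟨s', hcard, hdisj, hl, m₀, hm₀⟩ := exists_chord_one hF Pinf s₀ Z
  obtain ⟨m₁, hm₁⟩ := exists_finrank_smul_single hF Pinf
  refine ⟨s', hcard, hdisj, hl, max m₀ m₁, fun m hm => ?_⟩
  obtain ⟨f₀, R₀, hf0, hR₀, hRZ, hdiv, hfin, hspan⟩ := hm₀ m (le_trans (le_max_left _ _) hm)
  have hl_m := hm₁ m (le_trans (le_max_right _ _) hm)
  set D : Divisor K F := (m : ℤ) • Finsupp.single Pinf (1 : ℤ) with hD
  -- degree count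
  have hdegR : Divisor.degree R₀ = m - 2 * s₀.card - genusFF K F := by
    have h0 := degree_divOf (K := K) f₀
    rw [hdiv, map_sub, map_add, map_add, map_zsmul, map_zsmul, degree_ptsDiv hF,
      degree_ptsDiv hF, degree_single_of_pkg hF, hcard] at h0
    simp only [smul_eq_mul, mul_one] at h0
    linarith
  have hcount : (finrank K (riemannRochSpace D) : ℤ) = 1 + 2 * s₀.card + Divisor.degree R₀ := by
    rw [hl_m, hdegR]
    ring
  have hle : D - R₀ - (2 : ℤ) • ptsDiv s₀ ≤ D :=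
    (sub_le_self _ (smul_nonneg (by norm_num) (ptsDiv_nonneg s₀))).trans (sub_le_self _ hR₀)
  have hf₀D : f₀ ∈ riemannRochSpace D := by
    apply riemannRochSpace_mono hle
    rw [hspan]
    exact Submodule.mem_span_singleton_self f₀
  refine ⟨f₀, R₀, hf0, hR₀, hRZ, hdiv, hspan, hf₀D, hcount, card_jetIdx hF hR₀, fun t ht => ?_⟩
  have hD₀ : ∀ P ∈ s₀, D P = 0 := fun P hP =>
    smul_single_apply_of_ne (fun h : P = Pinf => hPinf (h ▸ hP)) _
  have hDR : ∀ P, R₀ P ≠ 0 → D P = 0 := fun P hP =>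
    smul_single_apply_of_ne (fun h : P = Pinf => hP (hRZ P (Or.inr (Or.inr (Or.inr h))))) _
  have ht₀ : ∀ P ∈ s₀, P.ord (t P) = 1 := fun P hP => ht P (Or.inl hP)
  have htR : ∀ P, R₀ P ≠ 0 → P.ord (t P) = 1 := fun P hP => ht P (Or.inr (Or.inr hP))
  have hdisj₀ : ∀ P ∈ s₀, R₀ P = 0 := fun P hP => hRZ P (Or.inl hP)
  have hsurj := chordOneJet_surjective D s₀ R₀ hD₀ hDR t ht₀ htR hF hR₀ hdisj₀
    (by rw [hfin, hcount]; push_cast; ring)
  have hker := chordOneJet_eq_zero_iff hF.deg_one D s₀ R₀ hD₀ hDR t ht₀ htR hR₀ hdisj₀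
  refine ⟨fun c₀ c₁ c => ?_, fun f hf => ?_, fun Q hQ => ?_⟩
  · obtain ⟨f, hf⟩ := hsurj (c₀, c₁, c)
    rw [chordOneJet_apply, Prod.mk.injEq, Prod.mk.injEq] at hf
    exact ⟨f.1, f.2, fun P => congrFun hf.1 P, fun P => congrFun hf.2.1 P,
      fun x => congrFun hf.2.2 x⟩
  · rw [← hspan, ← hker ⟨f, hf⟩, chordOneJet_apply, Prod.mk_eq_zero, Prod.mk_eq_zero]
    constructor
    · rintro ⟨h01, hj⟩
      exact ⟨funext fun P => (h01 P.1 P.2).1, funext fun P => (h01 P.1 P.2).2, funext hj⟩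
    · rintro ⟨h0, h1, hj⟩
      exact ⟨fun P hP => ⟨congrFun h0 ⟨P, hP⟩, congrFun h1 ⟨P, hP⟩⟩, fun x => congrFun hj x⟩
  · obtain ⟨hQ₀, -, hQinf⟩ := hdisj Q hQ
    apply taylorCoeff_of_ord_eq_one (hF.deg_one Q) (ht Q (Or.inr (Or.inl hQ)))
    have h1 := divOf_apply (K := K) f₀ Q
    rw [hdiv] at h1
    rw [← h1, Finsupp.sub_apply, Finsupp.add_apply, Finsupp.add_apply, Finsupp.smul_apply,
      ptsDiv_apply, ptsDiv_apply, if_neg hQ₀, if_pos hQ, hRZ Q (Or.inr (Or.inl hQ)),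
      smul_single_apply_of_ne hQinf]
    simp

/-- **(J4) return chord: (H1)/(H2) on the special fibre.**  `D₀ = ∑_{s₀} P` reduced of degree `g`
with `l(D₀) = 1` (the original centres, now OUTPUT), `D' = ∑_{s'} P` reduced (INPUT). -/
theorem exists_chord_two_jets [Infinite K] (Pinf : Place K F) (s₀ s' : Finset (Place K F))
    (hcard₀ : s₀.card = genusFF K F)
    (hl₀ : finrank K (riemannRochSpace (ptsDiv s₀)) = 1) (hdisj : Disjoint s₀ s')
    (hPinf₀ : Pinf ∉ s₀) (hPinf' : Pinf ∉ s') (Z : Finset (Place K F)) :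
    haveI := hF.principal
    ∃ m₀ : ℕ, ∀ m : ℕ, m₀ ≤ m → ∃ (f₁ : F) (R₁ : Divisor K F), f₁ ≠ 0 ∧ 0 ≤ R₁ ∧
      (∀ P, P ∈ s₀ ∨ P ∈ s' ∨ P ∈ Z ∨ P = Pinf → R₁ P = 0) ∧
      divOf K f₁ = ptsDiv s₀ + ptsDiv s' + R₁ - (m : ℤ) • Finsupp.single Pinf (1 : ℤ) ∧
      riemannRochSpace ((m : ℤ) • Finsupp.single Pinf (1 : ℤ) - R₁ - ptsDiv s') = K ∙ f₁ ∧
      f₁ ∈ riemannRochSpace ((m : ℤ) • Finsupp.single Pinf (1 : ℤ)) ∧
      (finrank K (riemannRochSpace ((m : ℤ) • Finsupp.single Pinf (1 : ℤ))) : ℤ) =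
        1 + s'.card + Divisor.degree R₁ ∧
      (Fintype.card (JetIdx R₁) : ℤ) = Divisor.degree R₁ ∧
      ∀ t : Place K F → F, (∀ P, P ∈ s₀ ∨ P ∈ s' ∨ R₁ P ≠ 0 → P.ord (t P) = 1) →
        (∀ (c₀ : {P : Place K F // P ∈ s'} → K) (c : JetIdx R₁ → K),
          ∃ f ∈ riemannRochSpace ((m : ℤ) • Finsupp.single Pinf (1 : ℤ)),
            (∀ P, taylorCoeff P.1 (t P.1) f 0 = c₀ P) ∧
            ∀ x : JetIdx R₁, taylorCoeff x.1.1 (t x.1.1) f x.2 = c x) ∧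
        (∀ f ∈ riemannRochSpace ((m : ℤ) • Finsupp.single Pinf (1 : ℤ)),
          ((∀ P ∈ s', taylorCoeff P (t P) f 0 = 0) ∧
            ∀ x : JetIdx R₁, taylorCoeff x.1.1 (t x.1.1) f x.2 = 0) ↔ f ∈ K ∙ f₁) ∧
        ∀ Q ∈ s₀, taylorCoeff Q (t Q) f₁ 0 = 0 ∧ taylorCoeff Q (t Q) f₁ 1 ≠ 0 := by
  classical
  haveI := hF.principal
  obtain ⟨m₀, hm₀⟩ := exists_chord_two hF Pinf s₀ s' hl₀ Z
  obtain ⟨m₁, hm₁⟩ := exists_finrank_smul_single hF Pinf
  refine ⟨max m₀ m₁, fun m hm => ?_⟩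
  obtain ⟨f₁, R₁, hf0, hR₁, hRZ, hdiv, hfin, hspan⟩ := hm₀ m (le_trans (le_max_left _ _) hm)
  have hl_m := hm₁ m (le_trans (le_max_right _ _) hm)
  set D : Divisor K F := (m : ℤ) • Finsupp.single Pinf (1 : ℤ) with hD
  have hdegR : Divisor.degree R₁ = m - s₀.card - s'.card := by
    have h0 := degree_divOf (K := K) f₁
    rw [hdiv, map_sub, map_add, map_add, map_zsmul, degree_ptsDiv hF,
      degree_ptsDiv hF, degree_single_of_pkg hF] at h0
    simp only [smul_eq_mul, mul_one] at h0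
    linarith
  have hcount : (finrank K (riemannRochSpace D) : ℤ) = 1 + s'.card + Divisor.degree R₁ := by
    rw [hl_m, hdegR, hcard₀]
    ring
  have hle : D - R₁ - ptsDiv s' ≤ D :=
    (sub_le_self _ (ptsDiv_nonneg s')).trans (sub_le_self _ hR₁)
  have hf₁D : f₁ ∈ riemannRochSpace D := by
    apply riemannRochSpace_mono hle
    rw [hspan]
    exact Submodule.mem_span_singleton_self f₁
  refine ⟨f₁, R₁, hf0, hR₁, hRZ, hdiv, hspan, hf₁D, hcount, card_jetIdx hF hR₁, fun t ht => ?_⟩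
  have hD' : ∀ P ∈ s', D P = 0 := fun P hP =>
    smul_single_apply_of_ne (fun h : P = Pinf => hPinf' (h ▸ hP)) _
  have hDR : ∀ P, R₁ P ≠ 0 → D P = 0 := fun P hP =>
    smul_single_apply_of_ne (fun h : P = Pinf => hP (hRZ P (Or.inr (Or.inr (Or.inr h))))) _
  have ht' : ∀ P ∈ s', P.ord (t P) = 1 := fun P hP => ht P (Or.inr (Or.inl hP))
  have htR : ∀ P, R₁ P ≠ 0 → P.ord (t P) = 1 := fun P hP => ht P (Or.inr (Or.inr hP))
  have hdisj' : ∀ P ∈ s', R₁ P = 0 := fun P hP => hRZ P (Or.inr (Or.inl hP))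
  have hsurj := chordTwoJet_surjective D s' R₁ hD' hDR t ht' htR hF hR₁ hdisj'
    (by rw [hfin, hcount]; push_cast; ring)
  have hker := chordTwoJet_eq_zero_iff hF.deg_one D s' R₁ hD' hDR t ht' htR hR₁ hdisj'
  refine ⟨fun c₀ c => ?_, fun f hf => ?_, fun Q hQ => ?_⟩
  · obtain ⟨f, hf⟩ := hsurj (c₀, c)
    rw [chordTwoJet_apply, Prod.mk.injEq] at hf
    exact ⟨f.1, f.2, fun P => congrFun hf.1 P, fun x => congrFun hf.2 x⟩
  · rw [← hspan, ← hker ⟨f, hf⟩, chordTwoJet_apply, Prod.mk_eq_zero]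
    constructor
    · rintro ⟨h0, hj⟩
      exact ⟨funext fun P => h0 P.1 P.2, funext hj⟩
    · rintro ⟨h0, hj⟩
      exact ⟨fun P hP => congrFun h0 ⟨P, hP⟩, fun x => congrFun hj x⟩
  · have hQ' : Q ∉ s' := Finset.disjoint_left.mp hdisj hQ
    have hQinf : Q ≠ Pinf := fun h => hPinf₀ (h ▸ hQ)
    apply taylorCoeff_of_ord_eq_one (hF.deg_one Q) (ht Q (Or.inl hQ))
    have h1 := divOf_apply (K := K) f₁ Q
    rw [hdiv] at h1
    rw [← h1, Finsupp.sub_apply, Finsupp.add_apply, Finsupp.add_apply,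
      ptsDiv_apply, ptsDiv_apply, if_pos hQ, if_neg hQ', hRZ Q (Or.inl hQ),
      smul_single_apply_of_ne hQinf]
    simp

end Pkg

end Fermat.Agent.FF2.NS
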