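import Mathlib
import Fermat.Agent.FF2.NS.JetsExist
import Fermat.Agent.FF2.G2.Chart

/-!
# MOONSHOT S19, block (F1'): the special-fibre packages of the two chords in `Fin g`-family form
(helper15)

`hF : RiemannPkg K F`, `K` infinite (use on the special fibre).  Families `Pb Pb' : Fin g → Place`
(helper14's `G2.sumPts` vocabulary), pole divisor written `Finsupp.single ∞ m` (helper14's
`GC.ChordData` shape).

* `ChordOneJets ∞ m Pb Pb' f₀ R₀ : Prop` : all special-fibre facts of the FIRST chord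
  (`div f₀ = 2 ΣPb + ΣPb' + R₀ - m∞`, `L(m∞ - R₀ - 2ΣPb) = K f₀`, rank count, (H1) jets onto with
  kernel `K f₀`, (H2) simple zeros at `Pb'`);
* `ChordTwoJets ∞ m Pb Pb' f₁ R₁ : Prop` : the same for the RETURN chord (inputs `Pb'`, outputs `Pb`);
* `exists_chordOneJets`, `exists_chordTwoJets` : existence.
-/

set_option autoImplicit false
set_option linter.unusedSectionVars false
set_option linter.style.haveILetI false

namespace Fermat.Agent.FF2.NS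

open AlgebraicCurve Fermat.Agent.Red Fermat.Agent.X0 Module Fermat.Agent.FF2.Disc
  Fermat.Agent.FF2.G2

variable {K F : Type*} [Field K] [Field F] [Algebra K F]

theorem smul_single_one (P : Place K F) (m : ℤ) :
    m • Finsupp.single P (1 : ℤ) = Finsupp.single P m := by
  rw [Finsupp.smul_single, smul_eq_mul, mul_one]

theorem sumPts_eq_ptsDiv [DecidableEq (Place K F)] {g : ℕ} (P : Fin g → Place K F)
    (hP : Function.Injective P) : sumPts P = ptsDiv (Finset.univ.image P) :=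
  sum_single_eq_ptsDiv P hP

/-- All special-fibre facts of the first chord. -/
structure ChordOneJets {g : ℕ} (Pinf : Place K F) (m : ℕ) (Pb Pb' : Fin g → Place K F)
    (f₀ : F) (R₀ : Divisor K F) : Prop where
  f_ne_zero : f₀ ≠ 0
  Pb_ne_inf : ∀ j, Pb j ≠ Pinf
  Pb'_ne_inf : ∀ j, Pb' j ≠ Pinf
  R_nonneg : 0 ≤ R₀
  R_Pb : ∀ j, R₀ (Pb j) = 0
  R_Pb' : ∀ j, R₀ (Pb' j) = 0
  R_inf : R₀ Pinf = 0
  ord_eq : ∀ Q : Place K F, Q.ord f₀ =
    ((2 : ℤ) • sumPts Pb + sumPts Pb' + R₀ - Finsupp.single Pinf (m : ℤ)) Q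
  span_eq : riemannRochSpace (Finsupp.single Pinf (m : ℤ) - R₀ - (2 : ℤ) • sumPts Pb) = K ∙ f₀
  f_mem : f₀ ∈ riemannRochSpace (Finsupp.single Pinf (m : ℤ))
  finrank_eq : (finrank K (riemannRochSpace (Finsupp.single Pinf (m : ℤ))) : ℤ) =
    2 * g + Divisor.degree R₀ + 1
  card_eq : (Fintype.card (JetIdx R₀) : ℤ) = Divisor.degree R₀
  degree_eq : Divisor.degree R₀ = m - 3 * g
  onto : ∀ t : Place K F → F,
    (∀ P, (∃ j, Pb j = P) ∨ (∃ j, Pb' j = P) ∨ R₀ P ≠ 0 → P.ord (t P) = 1) →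
    ∀ (c₀ c₁ : Fin g → K) (c : JetIdx R₀ → K),
      ∃ f ∈ riemannRochSpace (Finsupp.single Pinf (m : ℤ)),
        (∀ j, taylorCoeff (Pb j) (t (Pb j)) f 0 = c₀ j) ∧
        (∀ j, taylorCoeff (Pb j) (t (Pb j)) f 1 = c₁ j) ∧
        ∀ x : JetIdx R₀, taylorCoeff x.1.1 (t x.1.1) f x.2 = c x
  ker : ∀ t : Place K F → F,
    (∀ P, (∃ j, Pb j = P) ∨ (∃ j, Pb' j = P) ∨ R₀ P ≠ 0 → P.ord (t P) = 1) →
    ∀ f ∈ riemannRochSpace (Finsupp.single Pinf (m : ℤ)),
      ((∀ j, taylorCoeff (Pb j) (t (Pb j)) f 0 = 0 ∧ taylorCoeff (Pb j) (t (Pb j)) f 1 = 0) ∧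
        ∀ x : JetIdx R₀, taylorCoeff x.1.1 (t x.1.1) f x.2 = 0) ↔ f ∈ K ∙ f₀
  simple : ∀ t : Place K F → F,
    (∀ P, (∃ j, Pb j = P) ∨ (∃ j, Pb' j = P) ∨ R₀ P ≠ 0 → P.ord (t P) = 1) →
    ∀ j, taylorCoeff (Pb' j) (t (Pb' j)) f₀ 0 = 0 ∧ taylorCoeff (Pb' j) (t (Pb' j)) f₀ 1 ≠ 0

/-- All special-fibre facts of the return chord (inputs `Pb'`, outputs `Pb`). -/
structure ChordTwoJets {g : ℕ} (Pinf : Place K F) (m : ℕ) (Pb Pb' : Fin g → Place K F)
    (f₁ : F) (R₁ : Divisor K F) : Prop where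
  f_ne_zero : f₁ ≠ 0
  Pb_ne_inf : ∀ j, Pb j ≠ Pinf
  Pb'_ne_inf : ∀ j, Pb' j ≠ Pinf
  R_nonneg : 0 ≤ R₁
  R_Pb : ∀ j, R₁ (Pb j) = 0
  R_Pb' : ∀ j, R₁ (Pb' j) = 0
  R_inf : R₁ Pinf = 0
  ord_eq : ∀ Q : Place K F, Q.ord f₁ =
    (sumPts Pb' + sumPts Pb + R₁ - Finsupp.single Pinf (m : ℤ)) Q
  span_eq : riemannRochSpace (Finsupp.single Pinf (m : ℤ) - R₁ - sumPts Pb') = K ∙ f₁
  f_mem : f₁ ∈ riemannRochSpace (Finsupp.single Pinf (m : ℤ))
  finrank_eq : (finrank K (riemannRochSpace (Finsupp.single Pinf (m : ℤ))) : ℤ) =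
    g + Divisor.degree R₁ + 1
  card_eq : (Fintype.card (JetIdx R₁) : ℤ) = Divisor.degree R₁
  degree_eq : Divisor.degree R₁ = m - 2 * g
  onto : ∀ t : Place K F → F,
    (∀ P, (∃ j, Pb j = P) ∨ (∃ j, Pb' j = P) ∨ R₁ P ≠ 0 → P.ord (t P) = 1) →
    ∀ (c₀ : Fin g → K) (c : JetIdx R₁ → K),
      ∃ f ∈ riemannRochSpace (Finsupp.single Pinf (m : ℤ)),
        (∀ j, taylorCoeff (Pb' j) (t (Pb' j)) f 0 = c₀ j) ∧
        ∀ x : JetIdx R₁, taylorCoeff x.1.1 (t x.1.1) f x.2 = c x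
  ker : ∀ t : Place K F → F,
    (∀ P, (∃ j, Pb j = P) ∨ (∃ j, Pb' j = P) ∨ R₁ P ≠ 0 → P.ord (t P) = 1) →
    ∀ f ∈ riemannRochSpace (Finsupp.single Pinf (m : ℤ)),
      ((∀ j, taylorCoeff (Pb' j) (t (Pb' j)) f 0 = 0) ∧
        ∀ x : JetIdx R₁, taylorCoeff x.1.1 (t x.1.1) f x.2 = 0) ↔ f ∈ K ∙ f₁
  simple : ∀ t : Place K F → F,
    (∀ P, (∃ j, Pb j = P) ∨ (∃ j, Pb' j = P) ∨ R₁ P ≠ 0 → P.ord (t P) = 1) →
    ∀ j, taylorCoeff (Pb j) (t (Pb j)) f₁ 0 = 0 ∧ taylorCoeff (Pb j) (t (Pb j)) f₁ 1 ≠ 0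

section Pkg

variable (hF : RiemannPkg K F)
include hF

/-- **(F1') first chord, special fibre, family form.** -/
theorem exists_chordOneJets [Infinite K] (Pinf : Place K F) {g : ℕ} (hg : genusFF K F = g)
    (Pb : Fin g → Place K F) (hPb : Function.Injective Pb) (hinf : ∀ j, Pb j ≠ Pinf)
    (Z : Finset (Place K F)) :
    ∃ Pb' : Fin g → Place K F, Function.Injective Pb' ∧
      (∀ j, Pb' j ∉ Z ∧ Pb' j ≠ Pinf ∧ ∀ i, Pb' j ≠ Pb i) ∧
      finrank K (riemannRochSpace (sumPts Pb')) = 1 ∧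
      ∃ m₀ : ℕ, ∀ m : ℕ, m₀ ≤ m → ∃ (f₀ : F) (R₀ : Divisor K F),
        (∀ Q ∈ Z, R₀ Q = 0) ∧ ChordOneJets Pinf m Pb Pb' f₀ R₀ := by
  classical
  subst hg
  haveI := hF.principal
  set s₀ := Finset.univ.image Pb with hs₀
  have hmem₀ : ∀ j, Pb j ∈ s₀ := fun j => Finset.mem_image_of_mem _ (Finset.mem_univ j)
  have hsurj₀ : ∀ P ∈ s₀, ∃ j, Pb j = P := fun P hP => by
    obtain ⟨j, -, hj⟩ := Finset.mem_image.mp hP
    exact ⟨j, hj⟩
  have hcard₀ : s₀.card = genusFF K F := by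
    rw [hs₀, Finset.card_image_of_injective _ hPb, Finset.card_univ, Fintype.card_fin]
  have hPinf : Pinf ∉ s₀ := fun h => by
    obtain ⟨j, hj⟩ := hsurj₀ Pinf h
    exact hinf j hj
  obtain ⟨s', hcard, hdisj, hl, m₀, hm₀⟩ := exists_chord_one_jets hF Pinf s₀ hPinf Z
  obtain ⟨Pb', hinj', hmem', hsurj', hsum'⟩ := exists_fin_enum s' hcard
  have hsumPb : sumPts Pb = ptsDiv s₀ := sumPts_eq_ptsDiv Pb hPb
  have hsumPb' : sumPts Pb' = ptsDiv s' := hsum'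
  refine ⟨Pb', hinj', fun j => ?_, by rw [hsumPb']; exact hl, m₀, fun m hm => ?_⟩
  · obtain ⟨h1, h2, h3⟩ := hdisj (Pb' j) (hmem' j)
    exact ⟨h2, h3, fun i hi => h1 (by rw [hi]; exact hmem₀ i)⟩
  obtain ⟨f₀, R₀, hf0, hR₀, hRZ, hdiv, hspan, hfmem, hfin, hcardJ, hjets⟩ := hm₀ m hm
  refine ⟨f₀, R₀, fun Q hQ => hRZ Q (Or.inr (Or.inr (Or.inl hQ))), ?_⟩
  have hdegR : Divisor.degree R₀ = m - 3 * genusFF K F := by
    have h0 := degree_divOf (K := K) f₀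
    rw [hdiv, map_sub, map_add, map_add, map_zsmul, map_zsmul, degree_ptsDiv hF,
      degree_ptsDiv hF, degree_single_of_pkg hF, hcard, hcard₀] at h0
    simp only [smul_eq_mul, mul_one] at h0
    linarith
  have htconv : ∀ t : Place K F → F,
      (∀ P, (∃ j, Pb j = P) ∨ (∃ j, Pb' j = P) ∨ R₀ P ≠ 0 → P.ord (t P) = 1) →
      ∀ P, P ∈ s₀ ∨ P ∈ s' ∨ R₀ P ≠ 0 → P.ord (t P) = 1 := by
    intro t ht P hP
    rcases hP with hP | hP | hP
    · exact ht P (Or.inl (hsurj₀ P hP))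
    · exact ht P (Or.inr (Or.inl (hsurj' P hP)))
    · exact ht P (Or.inr (Or.inr hP))
  refine
    { f_ne_zero := hf0
      Pb_ne_inf := hinf
      Pb'_ne_inf := fun j => (hdisj (Pb' j) (hmem' j)).2.2
      R_nonneg := hR₀
      R_Pb := fun j => hRZ _ (Or.inl (hmem₀ j))
      R_Pb' := fun j => hRZ _ (Or.inr (Or.inl (hmem' j)))
      R_inf := hRZ _ (Or.inr (Or.inr (Or.inr rfl)))
      ord_eq := fun Q => ?_
      span_eq := by rw [← smul_single_one, hsumPb]; exact hspan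
      f_mem := by rw [← smul_single_one]; exact hfmem
      finrank_eq := by rw [← smul_single_one, hfin, hcard₀]; ring
      card_eq := hcardJ
      degree_eq := hdegR
      onto := fun t ht c₀ c₁ c => ?_
      ker := fun t ht f hf => ?_
      simple := fun t ht j => ?_ }
  · rw [← divOf_apply (K := K) f₀ Q, hdiv, hsumPb, hsumPb', smul_single_one]
  · -- onto
    obtain ⟨honto, -, -⟩ := hjets t (htconv t ht)
    let e : Fin (genusFF K F) ≃ {P : Place K F // P ∈ s₀} :=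
      Equiv.ofBijective (fun j => ⟨Pb j, hmem₀ j⟩)
        ⟨fun i j hij => hPb (congrArg Subtype.val hij),
          fun P => by
            obtain ⟨j, hj⟩ := hsurj₀ P.1 P.2
            exact ⟨j, Subtype.ext hj⟩⟩
    obtain ⟨f, hf, h0, h1, hc⟩ := honto (c₀ ∘ e.symm) (c₁ ∘ e.symm) c
    rw [smul_single_one] at hf
    refine ⟨f, hf, fun j => ?_, fun j => ?_, hc⟩
    · have := h0 (e j)
      rw [Function.comp_apply, Equiv.symm_apply_apply] at this
      exact this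
    · have := h1 (e j)
      rw [Function.comp_apply, Equiv.symm_apply_apply] at this
      exact this
  · -- kernel
    obtain ⟨-, hker, -⟩ := hjets t (htconv t ht)
    rw [← smul_single_one] at hf
    rw [← hker f hf]
    constructor
    · rintro ⟨h01, hj⟩
      refine ⟨fun P hP => ?_, hj⟩
      obtain ⟨j, rfl⟩ := hsurj₀ P hP
      exact h01 j
    · rintro ⟨h01, hj⟩
      exact ⟨fun j => h01 (Pb j) (hmem₀ j), hj⟩
  · obtain ⟨-, -, hsimple⟩ := hjets t (htconv t ht)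
    exact hsimple (Pb' j) (hmem' j)

/-- **(F1') return chord, special fibre, family form.** -/
theorem exists_chordTwoJets [Infinite K] (Pinf : Place K F) {g : ℕ} (hg : genusFF K F = g)
    (Pb Pb' : Fin g → Place K F) (hPb : Function.Injective Pb) (hPb' : Function.Injective Pb')
    (hl₀ : finrank K (riemannRochSpace (sumPts Pb)) = 1)
    (hdisj : ∀ i j, Pb' j ≠ Pb i) (hinf : ∀ j, Pb j ≠ Pinf) (hinf' : ∀ j, Pb' j ≠ Pinf)
    (Z : Finset (Place K F)) :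
    ∃ m₀ : ℕ, ∀ m : ℕ, m₀ ≤ m → ∃ (f₁ : F) (R₁ : Divisor K F),
      (∀ Q ∈ Z, R₁ Q = 0) ∧ ChordTwoJets Pinf m Pb Pb' f₁ R₁ := by
  classical
  subst hg
  haveI := hF.principal
  set s₀ := Finset.univ.image Pb with hs₀
  set s' := Finset.univ.image Pb' with hs'
  have hmem₀ : ∀ j, Pb j ∈ s₀ := fun j => Finset.mem_image_of_mem _ (Finset.mem_univ j)
  have hmem' : ∀ j, Pb' j ∈ s' := fun j => Finset.mem_image_of_mem _ (Finset.mem_univ j)
  have hsurj₀ : ∀ P ∈ s₀, ∃ j, Pb j = P := fun P hP => by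
    obtain ⟨j, -, hj⟩ := Finset.mem_image.mp hP
    exact ⟨j, hj⟩
  have hsurj' : ∀ P ∈ s', ∃ j, Pb' j = P := fun P hP => by
    obtain ⟨j, -, hj⟩ := Finset.mem_image.mp hP
    exact ⟨j, hj⟩
  have hcard₀ : s₀.card = genusFF K F := by
    rw [hs₀, Finset.card_image_of_injective _ hPb, Finset.card_univ, Fintype.card_fin]
  have hcard' : s'.card = genusFF K F := by
    rw [hs', Finset.card_image_of_injective _ hPb', Finset.card_univ, Fintype.card_fin]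
  have hPinf₀ : Pinf ∉ s₀ := fun h => by
    obtain ⟨j, hj⟩ := hsurj₀ Pinf h
    exact hinf j hj
  have hPinf' : Pinf ∉ s' := fun h => by
    obtain ⟨j, hj⟩ := hsurj' Pinf h
    exact hinf' j hj
  have hdisjF : Disjoint s₀ s' := by
    rw [Finset.disjoint_left]
    intro P hP hP'
    obtain ⟨i, rfl⟩ := hsurj₀ P hP
    obtain ⟨j, hj⟩ := hsurj' _ hP'
    exact hdisj i j hj
  have hsumPb : sumPts Pb = ptsDiv s₀ := sumPts_eq_ptsDiv Pb hPb
  have hsumPb' : sumPts Pb' = ptsDiv s' := sumPts_eq_ptsDiv Pb' hPb'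
  obtain ⟨m₀, hm₀⟩ := exists_chord_two_jets hF Pinf s₀ s' hcard₀ (by rw [← hsumPb]; exact hl₀)
    hdisjF hPinf₀ hPinf' Z
  refine ⟨m₀, fun m hm => ?_⟩
  obtain ⟨f₁, R₁, hf0, hR₁, hRZ, hdiv, hspan, hfmem, hfin, hcardJ, hjets⟩ := hm₀ m hm
  refine ⟨f₁, R₁, fun Q hQ => hRZ Q (Or.inr (Or.inr (Or.inl hQ))), ?_⟩
  have hdegR : Divisor.degree R₁ = m - 2 * genusFF K F := by
    have h0 := degree_divOf (K := K) f₁
    rw [hdiv, map_sub, map_add, map_add, map_zsmul, degree_ptsDiv hF,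
      degree_ptsDiv hF, degree_single_of_pkg hF, hcard', hcard₀] at h0
    simp only [smul_eq_mul, mul_one] at h0
    linarith
  have htconv : ∀ t : Place K F → F,
      (∀ P, (∃ j, Pb j = P) ∨ (∃ j, Pb' j = P) ∨ R₁ P ≠ 0 → P.ord (t P) = 1) →
      ∀ P, P ∈ s₀ ∨ P ∈ s' ∨ R₁ P ≠ 0 → P.ord (t P) = 1 := by
    intro t ht P hP
    rcases hP with hP | hP | hP
    · exact ht P (Or.inl (hsurj₀ P hP))
    · exact ht P (Or.inr (Or.inl (hsurj' P hP)))
    · exact ht P (Or.inr (Or.inr hP))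
  refine
    { f_ne_zero := hf0
      Pb_ne_inf := hinf
      Pb'_ne_inf := hinf'
      R_nonneg := hR₁
      R_Pb := fun j => hRZ _ (Or.inl (hmem₀ j))
      R_Pb' := fun j => hRZ _ (Or.inr (Or.inl (hmem' j)))
      R_inf := hRZ _ (Or.inr (Or.inr (Or.inr rfl)))
      ord_eq := fun Q => ?_
      span_eq := by rw [← smul_single_one, hsumPb']; exact hspan
      f_mem := by rw [← smul_single_one]; exact hfmem
      finrank_eq := by rw [← smul_single_one, hfin, hcard']; ring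
      card_eq := hcardJ
      degree_eq := hdegR
      onto := fun t ht c₀ c => ?_
      ker := fun t ht f hf => ?_
      simple := fun t ht j => ?_ }
  · rw [← divOf_apply (K := K) f₁ Q, hdiv, hsumPb, hsumPb', smul_single_one,
      add_comm (ptsDiv s₀) (ptsDiv s')]
  · -- onto
    obtain ⟨honto, -, -⟩ := hjets t (htconv t ht)
    let e : Fin (genusFF K F) ≃ {P : Place K F // P ∈ s'} :=
      Equiv.ofBijective (fun j => ⟨Pb' j, hmem' j⟩)
        ⟨fun i j hij => hPb' (congrArg Subtype.val hij),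
          fun P => by
            obtain ⟨j, hj⟩ := hsurj' P.1 P.2
            exact ⟨j, Subtype.ext hj⟩⟩
    obtain ⟨f, hf, h0, hc⟩ := honto (c₀ ∘ e.symm) c
    rw [smul_single_one] at hf
    refine ⟨f, hf, fun j => ?_, hc⟩
    have := h0 (e j)
    rw [Function.comp_apply, Equiv.symm_apply_apply] at this
    exact this
  · -- kernel
    obtain ⟨-, hker, -⟩ := hjets t (htconv t ht)
    rw [← smul_single_one] at hf
    rw [← hker f hf]
    constructor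
    · rintro ⟨h0, hj⟩
      refine ⟨fun P hP => ?_, hj⟩
      obtain ⟨j, rfl⟩ := hsurj' P hP
      exact h0 j
    · rintro ⟨h0, hj⟩
      exact ⟨fun j => h0 (Pb' j) (hmem' j), hj⟩
  · obtain ⟨-, -, hsimple⟩ := hjets t (htconv t ht)
    exact hsimple (Pb j) (hmem₀ j)

end Pkg

end Fermat.Agent.FF2.NS
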