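import Mathlib
import Fermat.Agent.FF2.NS.JetsFin
import Fermat.Agent.FF2.GC.Chord

/-!
# MOONSHOT S19, block (F1'): helper14's `GC.ChordData` for BOTH chords (helper15)

Abstract `S : Red.RedSetup A π`, `hFt : RiemannPkg k Ft` on the special fibre, `k` infinite, and an
ARBITRARY section `lift : Place k Ft → Place K F` of the place reduction `S.r` supplied by the caller
(so that the rationality block can feed `Γ_n`-fixed lifts).  All residue points that are used lie
outside the caller's finite set `Z`.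

* `chordDataOne`, `chordDataTwo` : the `GC.ChordData` attached to the special-fibre packages
  `ChordOneJets`, `ChordTwoJets`;
* `exists_chordData_one` : from an input chart `C`: an output chart `C'` (centres outside
  `Z ∪ {r ∞} ∪ C.Pb`, base points `lift`ed) and for every large `m` a `GC.ChordData C' (g + g)` with
  `Qb = Fin.append C.Pb C.Pb`, `R = mapDomain lift Rb`, carrying `ChordOneJets`;
* `exists_chordData_two` : the return chord `GC.ChordData C g` with `Qb = C'.Pb`, carrying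
  `ChordTwoJets`.
-/

set_option autoImplicit false
set_option linter.unusedSectionVars false
set_option linter.style.haveILetI false

namespace Fermat.Agent.FF2.NS

open AlgebraicCurve Fermat.Agent.Red Fermat.Agent.X0 Module Fermat.Agent.FF2.Disc
  Fermat.Agent.FF2.G2 Fermat.Agent.FF2.GC

section General

variable {K F : Type*} [Field K] [Field F] [Algebra K F]

theorem sumPts_append {g h : ℕ} (P : Fin g → Place K F) (Q : Fin h → Place K F) :
    sumPts (Fin.append P Q) = sumPts P + sumPts Q := by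
  unfold sumPts
  rw [Fin.sum_univ_add]
  simp only [Fin.append_left, Fin.append_right]

end General

variable {K F k Ft : Type*} [Field K] [Field F] [Algebra K F] [Field k] [Field Ft]
  [Algebra k Ft] {A : ValuationSubring K} {π : A →+* k}
  {S : RedSetup (F := F) (Ft := Ft) A π}

section Lift

variable (lift : Place k Ft → Place K F) (hlift : ∀ Q, S.r (lift Q) = Q)
include hlift

theorem lift_injective : Function.Injective lift := fun Q Q' h => by
  rw [← hlift Q, ← hlift Q', h]

/-- Reducing the lift of a divisor gives it back. -/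
theorem mapDomain_r_mapDomain_lift (D : Divisor k Ft) :
    Finsupp.mapDomain S.r (Finsupp.mapDomain lift D) = D := by
  rw [← Finsupp.mapDomain_comp]
  have h : S.r ∘ lift = id := funext hlift
  rw [h, Finsupp.mapDomain_id]

theorem mapDomain_lift_apply_lift (D : Divisor k Ft) (Q : Place k Ft) :
    Finsupp.mapDomain lift D (lift Q) = D Q :=
  Finsupp.mapDomain_apply (lift_injective lift hlift) D Q

theorem mapDomain_lift_apply_of_ne (D : Divisor k Ft) {P : Place K F}
    (hP : P ≠ lift (S.r P)) : Finsupp.mapDomain lift D P = 0 := by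
  apply Finsupp.mapDomain_of_notMem_range
  rintro ⟨Q, rfl⟩
  apply hP
  rw [hlift Q]

theorem mapDomain_lift_nonneg {D : Divisor k Ft} (hD : 0 ≤ D) :
    0 ≤ Finsupp.mapDomain lift D := by
  intro P
  rw [Finsupp.zero_apply]
  by_cases hP : P = lift (S.r P)
  · rw [hP, mapDomain_lift_apply_lift lift hlift]
    simpa using hD (S.r P)
  · rw [mapDomain_lift_apply_of_ne lift hlift D hP]

theorem eq_lift_of_mapDomain_lift_ne_zero {D : Divisor k Ft} {P : Place K F}
    (hP : Finsupp.mapDomain lift D P ≠ 0) : P = lift (S.r P) ∧ D (S.r P) ≠ 0 := by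
  have h1 : P = lift (S.r P) := by
    by_contra hne
    exact hP (mapDomain_lift_apply_of_ne lift hlift D hne)
  refine ⟨h1, fun h0 => hP ?_⟩
  rw [h1, mapDomain_lift_apply_lift lift hlift, h0]

end Lift

/-- The `GC.ChordData` of the first chord. -/
noncomputable def chordDataOne {g : ℕ} (C C' : ChartData S g) (Pinf : Place K F) (m : ℕ)
    (R : Divisor K F) (f₀ : Ft)
    (h : ChordOneJets (S.r Pinf) m C.Pb C'.Pb f₀ (Finsupp.mapDomain S.r R)) :
    ChordData C' (g + g) where
  Pinf := Pinf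
  m := m
  R := R
  Qb := Fin.append C.Pb C.Pb
  f0b := f₀
  f0b_ne_zero := h.f_ne_zero
  hspan := fun x hx => by
    rw [sumPts_append, ← two_smul ℤ (sumPts C.Pb), h.span_eq] at hx
    obtain ⟨c, hc⟩ := Submodule.mem_span_singleton.mp hx
    exact ⟨c, hc.symm⟩
  hdiv := fun Q => by
    rw [h.ord_eq Q, sumPts_append, ← two_smul ℤ (sumPts C.Pb)]
    simp only [Finsupp.sub_apply, Finsupp.add_apply]
    ring
  hdeg := by
    have h1 := h.degree_eq
    rw [degree_mapDomain_eq S.r S.deg_r] at h1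
    rw [h1]
    push_cast
    ring

/-- The `GC.ChordData` of the return chord. -/
noncomputable def chordDataTwo {g : ℕ} (C C' : ChartData S g) (Pinf : Place K F) (m : ℕ)
    (R : Divisor K F) (f₁ : Ft)
    (h : ChordTwoJets (S.r Pinf) m C.Pb C'.Pb f₁ (Finsupp.mapDomain S.r R)) :
    ChordData C g where
  Pinf := Pinf
  m := m
  R := R
  Qb := C'.Pb
  f0b := f₁
  f0b_ne_zero := h.f_ne_zero
  hspan := fun x hx => by
    rw [h.span_eq] at hx
    obtain ⟨c, hc⟩ := Submodule.mem_span_singleton.mp hx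
    exact ⟨c, hc.symm⟩
  hdiv := fun Q => by
    rw [h.ord_eq Q]
    simp only [Finsupp.sub_apply, Finsupp.add_apply]
    ring
  hdeg := by
    have h1 := h.degree_eq
    rw [degree_mapDomain_eq S.r S.deg_r] at h1
    rw [h1]
    ring

section Exist

variable (hFt : RiemannPkg k Ft) (lift : Place k Ft → Place K F)
  (hlift : ∀ Q, S.r (lift Q) = Q)
include hFt hlift

/-- An input chart with centres outside `Z` and `lift`ed base points. -/
theorem exists_chartData {g : ℕ} (hg : genusFF k Ft = g) (Z : Finset (Place k Ft)) :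
    ∃ C : ChartData S g, (∀ j, C.Pb j ∉ Z) ∧ ∀ j, C.P0 j = lift (C.Pb j) := by
  subst hg
  obtain ⟨Pb, hinj, hZ, hl⟩ := exists_nonspecial_fin hFt Z
  exact ⟨{ Pb := Pb, P0 := fun j => lift (Pb j), Pb_injective := hinj, nonspecial := hl,
           r_P0 := fun j => hlift _ }, hZ, fun _ => rfl⟩

/-- **(F1') first chord**: output chart `C'` and, for every large `m`, helper14's `GC.ChordData`
with `Qb = Fin.append C.Pb C.Pb`, together with the special-fibre package `ChordOneJets`
(= (H1)/(H2) of (UC4)) for the SAME `(m, f0b, Rb)`. -/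
theorem exists_chordData_one [Infinite k] {g : ℕ} (hg : genusFF k Ft = g) (C : ChartData S g)
    (Pinf : Place K F) (hinf : ∀ j, C.Pb j ≠ S.r Pinf) (Z : Finset (Place k Ft)) :
    ∃ C' : ChartData S g,
      (∀ j, C'.Pb j ∉ Z ∧ C'.Pb j ≠ S.r Pinf ∧ ∀ i, C'.Pb j ≠ C.Pb i) ∧
      (∀ j, C'.P0 j = lift (C'.Pb j)) ∧
      ∃ m₀ : ℕ, ∀ m : ℕ, m₀ ≤ m → ∃ (X : ChordData C' (g + g)) (Rb : Divisor k Ft),
        X.Pinf = Pinf ∧ X.m = m ∧ X.Qb = Fin.append C.Pb C.Pb ∧
        X.R = Finsupp.mapDomain lift Rb ∧ Finsupp.mapDomain S.r X.R = Rb ∧ 0 ≤ X.R ∧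
        (∀ Q ∈ Z, Rb Q = 0) ∧ ChordOneJets (S.r Pinf) m C.Pb C'.Pb X.f0b Rb := by
  obtain ⟨Pb', hinj', hdisj', hl', m₀, hm₀⟩ :=
    exists_chordOneJets hFt (S.r Pinf) hg C.Pb C.Pb_injective hinf Z
  refine ⟨{ Pb := Pb', P0 := fun j => lift (Pb' j), Pb_injective := hinj', nonspecial := hl',
            r_P0 := fun j => hlift _ }, hdisj', fun _ => rfl, m₀, fun m hm => ?_⟩
  obtain ⟨f₀, R₀, hRZ, hJ⟩ := hm₀ m hm
  have hR := mapDomain_r_mapDomain_lift lift hlift R₀
  exact ⟨chordDataOne C _ Pinf m (Finsupp.mapDomain lift R₀) f₀ (by rw [hR]; exact hJ), R₀,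
    rfl, rfl, rfl, rfl, hR, mapDomain_lift_nonneg lift hlift hJ.R_nonneg, hRZ, hJ⟩

/-- **(F1') return chord**: for every large `m`, helper14's `GC.ChordData C g` with `Qb = C'.Pb`
(inputs in the discs of `C'`, outputs in the discs of the ORIGINAL chart `C`), together with the
special-fibre package `ChordTwoJets`. -/
theorem exists_chordData_two [Infinite k] {g : ℕ} (hg : genusFF k Ft = g) (C C' : ChartData S g)
    (Pinf : Place K F) (hdisj : ∀ i j, C'.Pb j ≠ C.Pb i) (hinf : ∀ j, C.Pb j ≠ S.r Pinf)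
    (hinf' : ∀ j, C'.Pb j ≠ S.r Pinf) (Z : Finset (Place k Ft)) :
    ∃ m₀ : ℕ, ∀ m : ℕ, m₀ ≤ m → ∃ (X : ChordData C g) (Rb : Divisor k Ft),
      X.Pinf = Pinf ∧ X.m = m ∧ X.Qb = C'.Pb ∧
      X.R = Finsupp.mapDomain lift Rb ∧ Finsupp.mapDomain S.r X.R = Rb ∧ 0 ≤ X.R ∧
      (∀ Q ∈ Z, Rb Q = 0) ∧ ChordTwoJets (S.r Pinf) m C.Pb C'.Pb X.f0b Rb := by
  obtain ⟨m₀, hm₀⟩ := exists_chordTwoJets hFt (S.r Pinf) hg C.Pb C'.Pb C.Pb_injective
    C'.Pb_injective C.nonspecial hdisj hinf hinf' Z
  refine ⟨m₀, fun m hm => ?_⟩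
  obtain ⟨f₁, R₁, hRZ, hJ⟩ := hm₀ m hm
  have hR := mapDomain_r_mapDomain_lift lift hlift R₁
  exact ⟨chordDataTwo C C' Pinf m (Finsupp.mapDomain lift R₁) f₁ (by rw [hR]; exact hJ), R₁,
    rfl, rfl, rfl, rfl, hR, mapDomain_lift_nonneg lift hlift hJ.R_nonneg, hRZ, hJ⟩

end Exist

end Fermat.Agent.FF2.NS
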