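import Mathlib
import Fermat.Agent.FF2.NS.JetsFin

/-!
# MOONSHOT S19, block (F1'): the special-fibre hypotheses of (UC4) in MATRIX form (helper15)

`hF : RiemannPkg K F` (special fibre), `h : ChordOneJets ∞ m Pb Pb' f₀ R₀`, local parameters `t`,
`b : Basis ι K L(m∞)`.  The reduced condition matrix of helper2's `FF2/Chord` (`cond0` mapped to
the residue field) is, by helper25's `pi_coeff`, the matrix of Taylor coefficients of the reduced
basis:

`chordOneMat Pb R₀ t b E : Matrix (Fin g ⊕ Fin g ⊕ E ⊕ JetIdx R₀) ι K`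
  (rows: `a₀(Pb d, b i)` | `a₁(Pb d, b i)` | (empty `E`) | `aₙ(Q, b i)`),
`chordTwoMat Pb' R₁ t b E : Matrix (E ⊕ E ⊕ Fin g ⊕ JetIdx R₁) ι K`
  (rows: (empty) | (empty) | `a₀(Pb' s, b i)` | `aₙ(Q, b i)`).

* `ChordOneJets.matrix_facts`, `ChordTwoJets.matrix_facts` : the rank count `card ι = #rows + 1`,
  (H1) `mulVecLin` onto, and the coordinate vector `fb` of `f₀` in the basis: `fb ≠ 0`, in the
  kernel, `Σ fb i a₀(out o, b i) = 0`, `Σ fb i a₁(out o, b i) ≠ 0` — literally the hypotheses of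
  helper2's `exists_chordSol` / `exists_lift_f0` on the special fibre.
-/

set_option autoImplicit false
set_option linter.unusedSectionVars false
set_option linter.style.haveILetI false

namespace Fermat.Agent.FF2.NS

open AlgebraicCurve Fermat.Agent.Red Fermat.Agent.X0 Module Fermat.Agent.FF2.Disc
  Fermat.Agent.FF2.G2

variable {K F : Type*} [Field K] [Field F] [Algebra K F]

/-- The condition matrix of the first chord on the special fibre. -/
noncomputable def chordOneMat {g : ℕ} (Pb : Fin g → Place K F) (R₀ : Divisor K F)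
    (t : Place K F → F) {ι : Type*} (b : ι → F) (E : Type*) :
    Matrix (Fin g ⊕ Fin g ⊕ E ⊕ JetIdx R₀) ι K :=
  Matrix.of fun c i =>
    match c with
    | .inl d => taylorCoeff (Pb d) (t (Pb d)) (b i) 0
    | .inr (.inl d) => taylorCoeff (Pb d) (t (Pb d)) (b i) 1
    | .inr (.inr (.inl _)) => 0
    | .inr (.inr (.inr x)) => taylorCoeff x.1.1 (t x.1.1) (b i) x.2

/-- The condition matrix of the return chord on the special fibre. -/
noncomputable def chordTwoMat {g : ℕ} (Pb' : Fin g → Place K F) (R₁ : Divisor K F)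
    (t : Place K F → F) {ι : Type*} (b : ι → F) (E : Type*) :
    Matrix (E ⊕ E ⊕ Fin g ⊕ JetIdx R₁) ι K :=
  Matrix.of fun c i =>
    match c with
    | .inl _ => 0
    | .inr (.inl _) => 0
    | .inr (.inr (.inl s)) => taylorCoeff (Pb' s) (t (Pb' s)) (b i) 0
    | .inr (.inr (.inr x)) => taylorCoeff x.1.1 (t x.1.1) (b i) x.2

/-- Linearity of a Taylor coefficient on a combination of elements of `L(D)`. -/
theorem sum_mul_taylorCoeff {P : Place K F} (hdeg : P.deg = 1) {t : F} (ht : P.ord t = 1)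
    {D : Divisor K F} (hDP : D P ≤ 0) (n : ℕ) {ι : Type*} [Fintype ι]
    (b : ι → riemannRochSpace D) (c : ι → K) :
    ∑ i, c i * taylorCoeff P t (b i : F) n =
      taylorCoeff P t ((∑ i, c i • b i : riemannRochSpace D) : F) n := by
  have h := map_sum (coeffLin hdeg ht D hDP n) (fun i => c i • b i) Finset.univ
  simp only [map_smul, coeffLin_apply, smul_eq_mul] at h
  exact h.symm

theorem sum_taylorCoeff_mul {P : Place K F} (hdeg : P.deg = 1) {t : F} (ht : P.ord t = 1)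
    {D : Divisor K F} (hDP : D P ≤ 0) (n : ℕ) {ι : Type*} [Fintype ι]
    (b : ι → riemannRochSpace D) (c : ι → K) :
    ∑ i, taylorCoeff P t (b i : F) n * c i =
      taylorCoeff P t ((∑ i, c i • b i : riemannRochSpace D) : F) n := by
  rw [← sum_mul_taylorCoeff hdeg ht hDP n b c]
  exact Finset.sum_congr rfl fun i _ => mul_comm _ _

theorem single_apply_le_zero_of_ne {Pinf P : Place K F} (hP : P ≠ Pinf) (m : ℤ) :
    (Finsupp.single Pinf m) P ≤ 0 := by
  classical
  rw [Finsupp.single_apply, if_neg (Ne.symm hP)]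

section Pkg

variable (hF : RiemannPkg K F)
include hF

/-- **First chord: the hypotheses of helper2's `exists_chordSol`/`exists_lift_f0` on the special
fibre, in matrix form.** -/
theorem ChordOneJets.matrix_facts {g : ℕ} {Pinf : Place K F} {m : ℕ}
    {Pb Pb' : Fin g → Place K F} {f₀ : F} {R₀ : Divisor K F}
    (h : ChordOneJets Pinf m Pb Pb' f₀ R₀) (t : Place K F → F)
    (ht : ∀ P, (∃ j, Pb j = P) ∨ (∃ j, Pb' j = P) ∨ R₀ P ≠ 0 → P.ord (t P) = 1)
    {ι : Type*} [Fintype ι] (b : Basis ι K (riemannRochSpace (Finsupp.single Pinf (m : ℤ))))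
    (E : Type*) [Fintype E] [IsEmpty E] :
    Fintype.card ι = Fintype.card (Fin g ⊕ Fin g ⊕ E ⊕ JetIdx R₀) + 1 ∧
    Function.Surjective (chordOneMat Pb R₀ t (fun i => (b i : F)) E).mulVecLin ∧
    ∃ fb : ι → K, fb ≠ 0 ∧ ∑ i, fb i • (b i : F) = f₀ ∧
      (chordOneMat Pb R₀ t (fun i => (b i : F)) E).mulVec fb = 0 ∧
      (∀ o, ∑ i, fb i * taylorCoeff (Pb' o) (t (Pb' o)) (b i : F) 0 = 0) ∧
      (∀ o, ∑ i, fb i * taylorCoeff (Pb' o) (t (Pb' o)) (b i : F) 1 ≠ 0) := by
  classical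
  have hDPb : ∀ j, (Finsupp.single Pinf (m : ℤ)) (Pb j) ≤ 0 := fun j =>
    single_apply_le_zero_of_ne (h.Pb_ne_inf j) _
  have hDPb' : ∀ j, (Finsupp.single Pinf (m : ℤ)) (Pb' j) ≤ 0 := fun j =>
    single_apply_le_zero_of_ne (h.Pb'_ne_inf j) _
  have hDR : ∀ x : JetIdx R₀, (Finsupp.single Pinf (m : ℤ)) x.1.1 ≤ 0 := fun x =>
    single_apply_le_zero_of_ne (fun hx : x.1.1 = Pinf => x.ne_zero (hx ▸ h.R_inf)) _
  have htPb : ∀ j, (Pb j).ord (t (Pb j)) = 1 := fun j => ht _ (Or.inl ⟨j, rfl⟩)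
  have htPb' : ∀ j, (Pb' j).ord (t (Pb' j)) = 1 := fun j => ht _ (Or.inr (Or.inl ⟨j, rfl⟩))
  have htR : ∀ x : JetIdx R₀, x.1.1.ord (t x.1.1) = 1 := fun x =>
    ht _ (Or.inr (Or.inr x.ne_zero))
  -- the rows of `M.mulVec c` are the jets of `∑ c i • b i`
  have hrow0 : ∀ (c : ι → K) (d : Fin g),
      (chordOneMat Pb R₀ t (fun i => (b i : F)) E).mulVec c (.inl d) =
        taylorCoeff (Pb d) (t (Pb d)) ((∑ i, c i • b i : riemannRochSpace (Finsupp.single Pinf (m : ℤ))) : F) 0 := fun c d =>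
    sum_taylorCoeff_mul (hF.deg_one _) (htPb d) (hDPb d) 0 b c
  have hrow1 : ∀ (c : ι → K) (d : Fin g),
      (chordOneMat Pb R₀ t (fun i => (b i : F)) E).mulVec c (.inr (.inl d)) =
        taylorCoeff (Pb d) (t (Pb d)) ((∑ i, c i • b i : riemannRochSpace (Finsupp.single Pinf (m : ℤ))) : F) 1 := fun c d =>
    sum_taylorCoeff_mul (hF.deg_one _) (htPb d) (hDPb d) 1 b c
  have hrowJ : ∀ (c : ι → K) (x : JetIdx R₀),
      (chordOneMat Pb R₀ t (fun i => (b i : F)) E).mulVec c (.inr (.inr (.inr x))) =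
        taylorCoeff x.1.1 (t x.1.1) ((∑ i, c i • b i : riemannRochSpace (Finsupp.single Pinf (m : ℤ))) : F) x.2 :=
    fun c x => sum_taylorCoeff_mul (hF.deg_one _) (htR x) (hDR x) x.2 b c
  refine ⟨?_, ?_, ?_⟩
  · -- rank count
    have h1 : (finrank K (riemannRochSpace (Finsupp.single Pinf (m : ℤ))) : ℤ) =
        Fintype.card ι := by
      rw [Module.finrank_eq_card_basis b]
    have h2 := h.finrank_eq
    have h3 := h.card_eq
    have h4 : Fintype.card E = 0 := Fintype.card_eq_zero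
    simp only [Fintype.card_sum, Fintype.card_fin, h4]
    omega
  · -- (H1)
    intro v
    obtain ⟨f, hf, h0, h1, hj⟩ := h.onto t ht (fun d => v (.inl d)) (fun d => v (.inr (.inl d)))
      (fun x => v (.inr (.inr (.inr x))))
    have hsum : ∑ i, b.repr ⟨f, hf⟩ i • b i = ⟨f, hf⟩ := b.sum_repr _
    refine ⟨b.repr ⟨f, hf⟩, ?_⟩
    funext r
    rw [Matrix.mulVecLin_apply]
    rcases r with d | d | e | x
    · rw [hrow0, hsum]
      exact h0 d
    · rw [hrow1, hsum]
      exact h1 d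
    · exact isEmptyElim e
    · rw [hrowJ, hsum]
      exact hj x
  · -- the coordinates of `f₀`
    have hsum : ∑ i, b.repr ⟨f₀, h.f_mem⟩ i • b i = ⟨f₀, h.f_mem⟩ := b.sum_repr _
    have hjets := (h.ker t ht f₀ h.f_mem).mpr (Submodule.mem_span_singleton_self f₀)
    refine ⟨b.repr ⟨f₀, h.f_mem⟩, fun h0 => ?_, ?_, ?_, fun o => ?_, fun o => ?_⟩
    · have : (⟨f₀, h.f_mem⟩ : riemannRochSpace (Finsupp.single Pinf (m : ℤ))) = 0 := by
        rw [← hsum, h0]
        simp
      exact h.f_ne_zero (congrArg Subtype.val this)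
    · have := congrArg Subtype.val hsum
      rw [Submodule.coe_sum] at this
      simpa using this
    · funext r
      rcases r with d | d | e | x
      · rw [hrow0, hsum]
        exact (hjets.1 d).1
      · rw [hrow1, hsum]
        exact (hjets.1 d).2
      · exact isEmptyElim e
      · rw [hrowJ, hsum]
        exact hjets.2 x
    · rw [sum_mul_taylorCoeff (hF.deg_one _) (htPb' o) (hDPb' o) 0 b, hsum]
      exact (h.simple t ht o).1
    · rw [sum_mul_taylorCoeff (hF.deg_one _) (htPb' o) (hDPb' o) 1 b, hsum]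
      exact (h.simple t ht o).2

/-- **Return chord: the hypotheses of helper2's `exists_chordSol`/`exists_lift_f0` on the special
fibre, in matrix form.** -/
theorem ChordTwoJets.matrix_facts {g : ℕ} {Pinf : Place K F} {m : ℕ}
    {Pb Pb' : Fin g → Place K F} {f₁ : F} {R₁ : Divisor K F}
    (h : ChordTwoJets Pinf m Pb Pb' f₁ R₁) (t : Place K F → F)
    (ht : ∀ P, (∃ j, Pb j = P) ∨ (∃ j, Pb' j = P) ∨ R₁ P ≠ 0 → P.ord (t P) = 1)
    {ι : Type*} [Fintype ι] (b : Basis ι K (riemannRochSpace (Finsupp.single Pinf (m : ℤ))))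
    (E : Type*) [Fintype E] [IsEmpty E] :
    Fintype.card ι = Fintype.card (E ⊕ E ⊕ Fin g ⊕ JetIdx R₁) + 1 ∧
    Function.Surjective (chordTwoMat Pb' R₁ t (fun i => (b i : F)) E).mulVecLin ∧
    ∃ fb : ι → K, fb ≠ 0 ∧ ∑ i, fb i • (b i : F) = f₁ ∧
      (chordTwoMat Pb' R₁ t (fun i => (b i : F)) E).mulVec fb = 0 ∧
      (∀ o, ∑ i, fb i * taylorCoeff (Pb o) (t (Pb o)) (b i : F) 0 = 0) ∧
      (∀ o, ∑ i, fb i * taylorCoeff (Pb o) (t (Pb o)) (b i : F) 1 ≠ 0) := by
  classical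
  have hDPb : ∀ j, (Finsupp.single Pinf (m : ℤ)) (Pb j) ≤ 0 := fun j =>
    single_apply_le_zero_of_ne (h.Pb_ne_inf j) _
  have hDPb' : ∀ j, (Finsupp.single Pinf (m : ℤ)) (Pb' j) ≤ 0 := fun j =>
    single_apply_le_zero_of_ne (h.Pb'_ne_inf j) _
  have hDR : ∀ x : JetIdx R₁, (Finsupp.single Pinf (m : ℤ)) x.1.1 ≤ 0 := fun x =>
    single_apply_le_zero_of_ne (fun hx : x.1.1 = Pinf => x.ne_zero (hx ▸ h.R_inf)) _
  have htPb : ∀ j, (Pb j).ord (t (Pb j)) = 1 := fun j => ht _ (Or.inl ⟨j, rfl⟩)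
  have htPb' : ∀ j, (Pb' j).ord (t (Pb' j)) = 1 := fun j => ht _ (Or.inr (Or.inl ⟨j, rfl⟩))
  have htR : ∀ x : JetIdx R₁, x.1.1.ord (t x.1.1) = 1 := fun x =>
    ht _ (Or.inr (Or.inr x.ne_zero))
  have hrow0 : ∀ (c : ι → K) (d : Fin g),
      (chordTwoMat Pb' R₁ t (fun i => (b i : F)) E).mulVec c (.inr (.inr (.inl d))) =
        taylorCoeff (Pb' d) (t (Pb' d))
          ((∑ i, c i • b i : riemannRochSpace (Finsupp.single Pinf (m : ℤ))) : F) 0 := fun c d =>
    sum_taylorCoeff_mul (hF.deg_one _) (htPb' d) (hDPb' d) 0 b c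
  have hrowJ : ∀ (c : ι → K) (x : JetIdx R₁),
      (chordTwoMat Pb' R₁ t (fun i => (b i : F)) E).mulVec c (.inr (.inr (.inr x))) =
        taylorCoeff x.1.1 (t x.1.1)
          ((∑ i, c i • b i : riemannRochSpace (Finsupp.single Pinf (m : ℤ))) : F) x.2 :=
    fun c x => sum_taylorCoeff_mul (hF.deg_one _) (htR x) (hDR x) x.2 b c
  refine ⟨?_, ?_, ?_⟩
  · have h1 : (finrank K (riemannRochSpace (Finsupp.single Pinf (m : ℤ))) : ℤ) =
        Fintype.card ι := by
      rw [Module.finrank_eq_card_basis b]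
    have h2 := h.finrank_eq
    have h3 := h.card_eq
    have h4 : Fintype.card E = 0 := Fintype.card_eq_zero
    simp only [Fintype.card_sum, Fintype.card_fin, h4]
    omega
  · intro v
    obtain ⟨f, hf, h0, hj⟩ := h.onto t ht (fun d => v (.inr (.inr (.inl d))))
      (fun x => v (.inr (.inr (.inr x))))
    have hsum : ∑ i, b.repr ⟨f, hf⟩ i • b i = ⟨f, hf⟩ := b.sum_repr _
    refine ⟨b.repr ⟨f, hf⟩, ?_⟩
    funext r
    rw [Matrix.mulVecLin_apply]
    rcases r with e | e | d | x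
    · exact isEmptyElim e
    · exact isEmptyElim e
    · rw [hrow0, hsum]
      exact h0 d
    · rw [hrowJ, hsum]
      exact hj x
  · have hsum : ∑ i, b.repr ⟨f₁, h.f_mem⟩ i • b i = ⟨f₁, h.f_mem⟩ := b.sum_repr _
    have hjets := (h.ker t ht f₁ h.f_mem).mpr (Submodule.mem_span_singleton_self f₁)
    refine ⟨b.repr ⟨f₁, h.f_mem⟩, fun h0 => ?_, ?_, ?_, fun o => ?_, fun o => ?_⟩
    · have : (⟨f₁, h.f_mem⟩ : riemannRochSpace (Finsupp.single Pinf (m : ℤ))) = 0 := by
        rw [← hsum, h0]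
        simp
      exact h.f_ne_zero (congrArg Subtype.val this)
    · have := congrArg Subtype.val hsum
      rw [Submodule.coe_sum] at this
      simpa using this
    · funext r
      rcases r with e | e | d | x
      · exact isEmptyElim e
      · exact isEmptyElim e
      · rw [hrow0, hsum]
        exact hjets.1 d
      · rw [hrowJ, hsum]
        exact hjets.2 x
    · rw [sum_mul_taylorCoeff (hF.deg_one _) (htPb o) (hDPb o) 0 b, hsum]
      exact (h.simple t ht o).1
    · rw [sum_mul_taylorCoeff (hF.deg_one _) (htPb o) (hDPb o) 1 b, hsum]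
      exact (h.simple t ht o).2

end Pkg

end Fermat.Agent.FF2.NS
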